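import Fermat.Agent.Corollaries.WtOne.Bound
import Fermat.Agent.DS.ChebotarevProof
import Fermat.Agent.DS.RankinPrimes
import Fermat.Agent.DS.Cyclo
import Fermat.Agent.X1.FinalOf
import Fermat.Agent.LTF.DeepCheb
import Mathlib.RepresentationTheory.Character

/-!
# Densities of Hecke eigenvalues in weight one

* `tendsto_sum_class`: Chebotarev's theorem for class functions;
* `Attached ε f r`: `r` is the Artin representation of the weight one eigenform `f`
  (`exists_attached` = the theorem of Deligne and Serre);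
* `Attached.det_eq`: `det r = ε ∘ (cyclotomic character mod N)`; `Attached.det_cc`,
  `Attached.trace_cc`: `r` is odd, complex conjugation has trace `0`;
* `Attached.density`: the primes with `(a_p, ε(p)) ∈ T` have a Dirichlet density, the proportion of
  the `g` in the image of `r` with `(tr g, det g) ∈ T`;
* `density_zero_pos`: `a_p = 0` for a set of primes of positive density;
* `mean_square`: the mean value of `|a_p|²` is `1`.
-/

set_option autoImplicit false

noncomputable section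

open CongruenceSubgroup UpperHalfPlane Function Filter Topology
open scoped MatrixGroups ModularForm

namespace Fermat.Agent.Cor.WtOne

open Fermat.Agent.X1 Fermat.Agent.HeckePar ModularFormClass Fermat.Agent.LT.End

local notation "Γℚ" => (AlgebraicClosure ℚ ≃ₐ[ℚ] AlgebraicClosure ℚ)

/-! ### Dirichlet densities -/

/-- The set of primes (in) `S` has Dirichlet density `d`:
`∑_{p ∈ S} p^{-s} / log (1 / (s - 1)) → d` for `s → 1+`. -/
def HasDirichletDensity (S : Set ℕ) (d : ℝ) : Prop :=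
  Tendsto (fun s : ℝ => DS.primeSum S s / Real.log (1 / (s - 1))) (𝓝[>] 1) (𝓝 d)

theorem primeSum_congr {S T : Set ℕ} (h : ∀ p : ℕ, p.Prime → (p ∈ S ↔ p ∈ T)) (s : ℝ) :
    DS.primeSum S s = DS.primeSum T s := by
  classical
  unfold DS.primeSum
  refine tsum_congr fun p => ?_
  by_cases hp : p.Prime
  · by_cases hS : p ∈ S
    · rw [if_pos ⟨hp, hS⟩, if_pos ⟨hp, (h p hp).mp hS⟩]
    · rw [if_neg (fun h1 => hS h1.2), if_neg (fun h1 => hS ((h p hp).mpr h1.2))]
  · rw [if_neg (fun h1 => hp h1.1), if_neg (fun h1 => hp h1.1)]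

theorem primeSum_eq_tsum (S : Set ℕ) (s : ℝ) : DS.primeSum S s =
    ∑' p : ℕ, Set.indicator {p : ℕ | p.Prime ∧ p ∈ S} (fun p : ℕ => (p : ℝ) ^ (-s)) p := by
  classical
  unfold DS.primeSum
  refine tsum_congr fun p => ?_
  rw [Set.indicator_apply]
  exact if_congr Iff.rfl rfl rfl

theorem summable_indicator (S : Set ℕ) {s : ℝ} (hs : 1 < s) : Summable
    (fun p : ℕ => Set.indicator {p : ℕ | p.Prime ∧ p ∈ S} (fun p : ℕ => (p : ℝ) ^ (-s)) p) := by
  classical
  refine (DS.summable_primeSum S hs).congr fun p => ?_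
  rw [Set.indicator_apply]
  exact if_congr Iff.rfl rfl rfl

/-- The density does not change if the set is changed at finitely many primes. -/
theorem HasDirichletDensity.congr {S T : Set ℕ} {d : ℝ} (h : HasDirichletDensity S d)
    {B : Set ℕ} (hB : B.Finite) (hST : ∀ p : ℕ, p.Prime → p ∉ B → (p ∈ S ↔ p ∈ T)) :
    HasDirichletDensity T d := by
  have key : ∀ U V : Set ℕ, (∀ p : ℕ, p.Prime → p ∉ B → (p ∈ U ↔ p ∈ V)) → ∀ s : ℝ, 1 < s →
      DS.primeSum U s ≤ DS.primeSum V s + hB.toFinset.card := by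
    intro U V hUV s hs
    have h1 : DS.primeSum U s = DS.primeSum {p | p.Prime ∧ p ∈ U} s :=
      primeSum_congr (S := U) (T := {p | p.Prime ∧ p ∈ U})
        (fun p hp => ⟨fun h => ⟨hp, h⟩, fun h => h.2⟩) s
    rw [h1]
    refine (DS.primeSum_mono (T := V ∪ B) ?_ hs).trans
      ((DS.primeSum_union_le V B hs).trans (add_le_add le_rfl (DS.primeSum_le_card hB hs)))
    rintro p ⟨hp, hpU⟩
    by_cases hpB : p ∈ B
    · exact Or.inr hpB
    · exact Or.inl ((hUV p hp hpB).mp hpU)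
  have h0 : Tendsto (fun s : ℝ => (DS.primeSum T s - DS.primeSum S s) / Real.log (1 / (s - 1)))
      (𝓝[>] 1) (𝓝 0) := by
    have h1 : Tendsto (fun s : ℝ => (hB.toFinset.card : ℝ) / Real.log (1 / (s - 1)))
        (𝓝[>] 1) (𝓝 0) := tendsto_const_nhds.div_atTop DS.tendsto_log_atTop
    refine squeeze_zero_norm' ?_ h1
    filter_upwards [self_mem_nhdsWithin, DS.tendsto_log_atTop.eventually_gt_atTop 0] with s hs hl
    rw [norm_div, Real.norm_eq_abs, Real.norm_eq_abs, abs_of_pos hl]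
    refine div_le_div_of_nonneg_right (abs_le.mpr ⟨?_, ?_⟩) hl.le
    · have := key S T hST s hs
      linarith
    · have := key T S (fun p hp hpB => (hST p hp hpB).symm) s hs
      linarith
  have h2 := h.add h0
  rw [add_zero] at h2
  refine h2.congr fun s => ?_
  rw [← add_div]
  congr 1
  ring

/-- A set of primes of positive Dirichlet density is infinite. -/
theorem HasDirichletDensity.infinite {S : Set ℕ} {d : ℝ} (h : HasDirichletDensity S d)
    (hd : d ≠ 0) : {p : ℕ | p.Prime ∧ p ∈ S}.Infinite := by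
  intro hfin
  have h1 : HasDirichletDensity (∅ : Set ℕ) d := h.congr hfin fun p hp hpB =>
    ⟨fun h => absurd ⟨hp, h⟩ hpB, fun h => absurd h (Set.notMem_empty p)⟩
  have h2 : ∀ s, DS.primeSum (∅ : Set ℕ) s = 0 := by
    intro s
    simp [DS.primeSum]
  have h3 : HasDirichletDensity (∅ : Set ℕ) 0 := by
    unfold HasDirichletDensity
    simp only [h2, zero_div]
    exact tendsto_const_nhds
  exact hd (tendsto_nhds_unique h1 h3)

/-! ### Chebotarev's theorem for class functions -/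

/-- **Chebotarev's theorem for class functions.** -/
theorem tendsto_sum_class {G : Type} [Group G] [Fintype G] (ψ : Γℚ →* G)
    (hsurj : Function.Surjective ψ) (hfac : GaloisFactorsThroughFiniteLevel ψ) (w : G → ℝ)
    (hw : ∀ g c : G, w (g * c * g⁻¹) = w c) (u : ℕ → ℝ) (B : Finset ℕ)
    (hu : ∀ p : ℕ, p.Prime → p ∉ B → ∀ A : ValuationSubring (AlgebraicClosure ℚ),
      A.LiesOverPrime p → (∀ τ ∈ A.inertiaSubgroupIn ℚ, ψ τ = 1) ∧
        ∀ σ : Γℚ, A.IsFrobeniusAt σ p → u p = w (ψ σ)) :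
    Tendsto (fun s : ℝ => (∑' p : ℕ, if p.Prime ∧ p ∉ B then u p * (p : ℝ) ^ (-s) else 0) /
      Real.log (1 / (s - 1))) (𝓝[>] 1) (𝓝 ((∑ g : G, w g) / Fintype.card G)) := by
  classical
  set V : Finset ℝ := Finset.univ.image w with hV
  set Cl : ℝ → Set G := fun t => {g | w g = t} with hCl
  have hconj : ∀ t, ∀ g c : G, c ∈ Cl t → g * c * g⁻¹ ∈ Cl t := by
    intro t g c hc
    have h1 : w c = t := hc
    change w (g * c * g⁻¹) = t
    rw [← h1]
    exact hw g c
  have hmem : ∀ p : ℕ, p.Prime → p ∉ B → ∀ t, (p ∈ DS.FrobSet ψ (Cl t) ↔ u p = t) := by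
    intro p hp hpB t
    constructor
    · rintro ⟨-, A, hA, -, σ, hσ, hσC⟩
      rw [(hu p hp hpB A hA).2 σ hσ]
      exact hσC
    · intro h
      obtain ⟨A, hA, σ, hσ⟩ := Frob.exists_frobenius p hp
      refine ⟨hp, A, hA, (hu p hp hpB A hA).1, σ, hσ, ?_⟩
      show w (ψ σ) = t
      rw [← (hu p hp hpB A hA).2 σ hσ, h]
  have hval : ∑ t ∈ V, t * ((Nat.card (Cl t) : ℝ) / Nat.card G) =
      (∑ g : G, w g) / Fintype.card G := by
    rw [Nat.card_eq_fintype_card, ← Finset.sum_fiberwise_of_maps_to (s := Finset.univ) (t := V)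
      (g := w) (f := w) (fun g _ => Finset.mem_image_of_mem _ (Finset.mem_univ g)),
      Finset.sum_div]
    refine Finset.sum_congr rfl fun t _ => ?_
    have h1 : ∑ g ∈ Finset.univ.filter (fun g => w g = t), w g =
        ∑ g ∈ Finset.univ.filter (fun g => w g = t), t :=
      Finset.sum_congr rfl fun g hg => (Finset.mem_filter.mp hg).2
    rw [h1, Finset.sum_const, nsmul_eq_mul]
    have h2 : Nat.card (Cl t) = (Finset.univ.filter (fun g => w g = t)).card := by
      rw [Nat.card_eq_fintype_card]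
      exact Fintype.card_subtype _
    rw [h2]
    ring
  have hlim : Tendsto (fun s : ℝ => ∑ t ∈ V,
      t * (DS.primeSum {p | p ∉ B ∧ p ∈ DS.FrobSet ψ (Cl t)} s / Real.log (1 / (s - 1))))
      (𝓝[>] 1) (𝓝 (∑ t ∈ V, t * ((Nat.card (Cl t) : ℝ) / Nat.card G))) := by
    refine tendsto_finsetSum _ fun t _ => ?_
    have h1 : HasDirichletDensity (DS.FrobSet ψ (Cl t)) ((Nat.card (Cl t) : ℝ) / Nat.card G) :=
      DS.chebotarev G ψ hsurj hfac (Cl t) (hconj t)
    have h2 : HasDirichletDensity {p | p ∉ B ∧ p ∈ DS.FrobSet ψ (Cl t)}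
        ((Nat.card (Cl t) : ℝ) / Nat.card G) :=
      h1.congr (B := (B : Set ℕ)) (Finset.finite_toSet B)
        fun p hp hpB => ⟨fun h => ⟨hpB, h⟩, fun h => h.2⟩
    exact h2.const_mul t
  rw [hval] at hlim
  refine hlim.congr' ?_
  filter_upwards [self_mem_nhdsWithin] with s hs
  have hs' : (1 : ℝ) < s := hs
  have h1 : ∀ t ∈ V, t * (DS.primeSum {p | p ∉ B ∧ p ∈ DS.FrobSet ψ (Cl t)} s /
      Real.log (1 / (s - 1))) =
      (t * DS.primeSum {p | p ∉ B ∧ p ∈ DS.FrobSet ψ (Cl t)} s) / Real.log (1 / (s - 1)) :=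
    fun t _ => (mul_div_assoc _ _ _).symm
  rw [Finset.sum_congr rfl h1, ← Finset.sum_div]
  congr 1
  have h2 : ∀ t ∈ V, t * DS.primeSum {p | p ∉ B ∧ p ∈ DS.FrobSet ψ (Cl t)} s =
      ∑' p : ℕ, t * Set.indicator {p : ℕ | p.Prime ∧ p ∈ {p | p ∉ B ∧ p ∈ DS.FrobSet ψ (Cl t)}}
        (fun p : ℕ => (p : ℝ) ^ (-s)) p := by
    intro t _
    rw [tsum_mul_left, primeSum_eq_tsum]
  rw [Finset.sum_congr rfl h2, ← Summable.tsum_finsetSum fun t _ =>
    (summable_indicator _ hs').mul_left t]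
  refine tsum_congr fun p => ?_
  by_cases hp : p.Prime ∧ p ∉ B
  · rw [if_pos hp]
    obtain ⟨A, hA, σ, hσ⟩ := Frob.exists_frobenius p hp.1
    have huV : u p ∈ V := by
      rw [(hu p hp.1 hp.2 A hA).2 σ hσ]
      exact Finset.mem_image_of_mem _ (Finset.mem_univ _)
    rw [Finset.sum_eq_single (u p)]
    · rw [Set.indicator_of_mem]
      exact ⟨hp.1, hp.2, (hmem p hp.1 hp.2 (u p)).mpr rfl⟩
    · intro t _ htne
      rw [Set.indicator_of_notMem, mul_zero]
      rintro ⟨-, -, h⟩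
      exact htne ((hmem p hp.1 hp.2 t).mp h).symm
    · intro h
      exact absurd huV h
  · rw [if_neg hp]
    refine Finset.sum_eq_zero fun t _ => ?_
    rw [Set.indicator_of_notMem, mul_zero]
    rintro ⟨h1, h2, -⟩
    exact hp ⟨h1, h2⟩

/-- **Chebotarev's theorem** for a set of primes which is determined by the class of Frobenius,
up to finitely many primes. -/
theorem density_of_class {G : Type} [Group G] [Finite G] (ψ : Γℚ →* G)
    (hsurj : Function.Surjective ψ) (hfac : GaloisFactorsThroughFiniteLevel ψ) (C : Set G)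
    (hC : ∀ g c : G, c ∈ C → g * c * g⁻¹ ∈ C) (S : Set ℕ) (B : Finset ℕ)
    (hu : ∀ p : ℕ, p.Prime → p ∉ B → ∀ A : ValuationSubring (AlgebraicClosure ℚ),
      A.LiesOverPrime p → (∀ τ ∈ A.inertiaSubgroupIn ℚ, ψ τ = 1) ∧
        ∀ σ : Γℚ, A.IsFrobeniusAt σ p → (p ∈ S ↔ ψ σ ∈ C)) :
    HasDirichletDensity S ((Nat.card C : ℝ) / Nat.card G) := by
  have h1 : HasDirichletDensity (DS.FrobSet ψ C) ((Nat.card C : ℝ) / Nat.card G) :=
    DS.chebotarev G ψ hsurj hfac C hC
  refine h1.congr (B := (B : Set ℕ)) (Finset.finite_toSet B) fun p hp hpB => ?_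
  constructor
  · rintro ⟨-, A, hA, -, σ, hσ, hσC⟩
    exact ((hu p hp hpB A hA).2 σ hσ).mpr hσC
  · intro h
    obtain ⟨A, hA, σ, hσ⟩ := Frob.exists_frobenius p hp
    exact ⟨hp, A, hA, (hu p hp hpB A hA).1, σ, hσ, ((hu p hp hpB A hA).2 σ hσ).mp h⟩

/-! ### The Artin representation of an eigenform of weight one -/

variable {N : ℕ} [NeZero N] {ε : DirichletCharacter ℂ N} {f : CuspForm (Gamma1 N) 1}

/-- `r` is the Artin representation attached to the weight one eigenform `f`. -/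
structure Attached (ε : DirichletCharacter ℂ N) (f : CuspForm (Gamma1 N) 1)
    (r : Γℚ →* GL (Fin 2) ℂ) : Prop where
  factors : GaloisFactorsThroughFiniteLevel r
  irr : (Deformation.matrixRepresentation r).IsIrreducible
  unr : ∀ p : ℕ, p.Prime → ¬ p ∣ N → ∀ A : ValuationSubring (AlgebraicClosure ℚ),
    A.LiesOverPrime p → ∀ σ ∈ A.inertiaSubgroupIn ℚ, r σ = 1
  trace : ∀ p : ℕ, p.Prime → ¬ p ∣ N → ∀ A : ValuationSubring (AlgebraicClosure ℚ),
    A.LiesOverPrime p → ∀ σ : Γℚ, A.IsFrobeniusAt σ p → (r σ).1.trace = qCoeff f p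
  det : ∀ p : ℕ, p.Prime → ¬ p ∣ N → ∀ A : ValuationSubring (AlgebraicClosure ℚ),
    A.LiesOverPrime p → ∀ σ : Γℚ, A.IsFrobeniusAt σ p → (r σ).1.det = ε (p : ZMod N)

/-- The theorem of Deligne and Serre. -/
theorem exists_attached (hf : IsNormEigen ε f) : ∃ r : Γℚ →* GL (Fin 2) ℂ, Attached ε f r := by
  obtain ⟨r, h1, h2, h3⟩ := S48.result N ε f hf.one hf.rel
  exact ⟨r, h1, h2, fun p hp hpN A hA => (h3 p hp hpN A hA).1,
    fun p hp hpN A hA σ hσ => ((h3 p hp hpN A hA).2 σ hσ).1,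
    fun p hp hpN A hA σ hσ => ((h3 p hp hpN A hA).2 σ hσ).2⟩

variable {r : Γℚ →* GL (Fin 2) ℂ}

omit [NeZero N] in
theorem Attached.finite_range (h : Attached ε f r) : Finite r.range :=
  DS.finite_range_of_factors h.factors

/-- The determinant of `r` is the character `ε`. -/
theorem Attached.det_eq (h : Attached ε f r) (σ : Γℚ) :
    (r σ).1.det = ε ((DS.cycN N σ : (ZMod N)ˣ) : ZMod N) := by
  obtain ⟨L, hL, hr⟩ := h.factors
  have : FiniteDimensional ℚ (IntermediateField.adjoin ℚ {DS.zetaN N}) :=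
    IntermediateField.adjoin.finiteDimensional
      ((AlgebraicClosure.isAlgebraic ℚ).isAlgebraic (DS.zetaN N)).isIntegral
  obtain ⟨p, hp, hpB, A, hA, -, φ, hφ, hφσ⟩ :=
    LTF.Deep.exists_frob_eq_on (L ⊔ IntermediateField.adjoin ℚ {DS.zetaN N}) σ N.primeFactors
  have hpN : ¬ p ∣ N := fun h => hpB (Nat.mem_primeFactors.mpr ⟨hp, h, NeZero.ne N⟩)
  have h1 : r φ = r σ := by
    have h2 : r (σ⁻¹ * φ) = 1 := by
      apply hr
      intro x hx
      rw [AlgEquiv.mul_apply, hφσ x ((le_sup_left : L ≤ _) hx), ← AlgEquiv.mul_apply,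
        inv_mul_cancel, AlgEquiv.one_apply]
    rw [map_mul, map_inv, inv_mul_eq_one] at h2
    exact h2.symm
  have h2 : DS.cycN N φ = DS.cycN N σ := DS.cycN_eq_of_eqOn N
    (hφσ _ ((le_sup_right : IntermediateField.adjoin ℚ {DS.zetaN N} ≤ _)
      (IntermediateField.mem_adjoin_simple_self ℚ _)))
  rw [← h1, ← h2, DS.cycN_frobenius N hp hpN hA hφ]
  exact h.det p hp hpN A hA φ hφ

omit [NeZero N] in
theorem IsNormEigen.ne_zero [NeZero N] (hf : IsNormEigen ε f) : f ≠ 0 := by
  rintro rfl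
  have h1 := hf.one
  have h2 : qCoeff ⇑(0 : CuspForm (Gamma1 N) 1) 1 = 0 := (qLin N (Gamma1 N) 1 1).map_zero
  rw [h2] at h1
  exact zero_ne_one h1

/-- The character of a weight one form is odd. -/
theorem IsNormEigen.odd (hf : IsNormEigen ε f) : ε (-1) = -1 :=
  oddChar N ε f (fun p => qCoeff f p) hf.ne_zero fun p hp hpN n => hf.rel p hp hpN n

/-- The Artin representation of a weight one form is odd. -/
theorem Attached.det_cc (h : Attached ε f r) (hf : IsNormEigen ε f) :
    (r complexConjugation).1.det = -1 := by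
  rw [h.det_eq, DS.cycN_complexConjugation, hf.odd]

/-- Complex conjugation has trace `0`. -/
theorem Attached.trace_cc (h : Attached ε f r) (hf : IsNormEigen ε f) :
    (r complexConjugation).1.trace = 0 := by
  have h1 : (r complexConjugation).1 ^ 2 = 1 := by
    rw [← Units.val_pow_eq_pow_val, ← map_pow, complexConjugation_sq, map_one, Units.val_one]
  obtain ⟨z, w, hz, hw, ht, hd⟩ := exists_eigenvalues h1
  rw [h.det_cc hf] at hd
  rw [ht]
  have h2 : (z + w) ^ 2 = 0 := by linear_combination hz + hw - 2 * hd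
  exact pow_eq_zero_iff two_ne_zero |>.mp h2

theorem trace_conj (g c : GL (Fin 2) ℂ) : (g * c * g⁻¹).1.trace = c.1.trace := by
  rw [Units.val_mul, Matrix.trace_mul_comm, ← Units.val_mul, ← mul_assoc, inv_mul_cancel, one_mul]

theorem det_conj (g c : GL (Fin 2) ℂ) : (g * c * g⁻¹).1.det = c.1.det := by
  rw [Units.val_mul, Matrix.det_mul_comm, ← Units.val_mul, ← mul_assoc, inv_mul_cancel, one_mul]

omit [NeZero N] in
theorem not_dvd_of_notMem [NeZero N] {p : ℕ} (hp : p.Prime) (h : p ∉ N.primeFactors) : ¬ p ∣ N :=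
  fun hd => h (Nat.mem_primeFactors.mpr ⟨hp, hd, NeZero.ne N⟩)

/-- **Equidistribution of the eigenvalues of a weight one form**: for every set `T` of pairs of
complex numbers, the primes `p ∤ N` with `(a_p, ε(p)) ∈ T` have a Dirichlet density, and it is the
proportion of the elements `g` of the (finite) image of the Artin representation with
`(tr g, det g) ∈ T`. -/
theorem Attached.density (h : Attached ε f r) (T : Set (ℂ × ℂ)) :
    HasDirichletDensity {p | ¬ p ∣ N ∧ (qCoeff f p, ε (p : ZMod N)) ∈ T}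
      ((Nat.card {g : r.range | ((g : GL (Fin 2) ℂ).1.trace, (g : GL (Fin 2) ℂ).1.det) ∈ T} : ℝ) /
        Nat.card r.range) := by
  have := h.finite_range
  refine density_of_class r.rangeRestrict r.rangeRestrict_surjective
    (DS.factors_rangeRestrict h.factors) _ ?_ _ N.primeFactors ?_
  · intro g c hc
    rw [Set.mem_ofPred_eq] at hc ⊢
    rw [Subgroup.coe_mul, Subgroup.coe_mul, Subgroup.coe_inv, trace_conj, det_conj]
    exact hc
  · intro p hp hpB A hA
    have hpN := not_dvd_of_notMem hp hpB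
    refine ⟨fun τ hτ => Subtype.ext (h.unr p hp hpN A hA τ hτ), fun σ hσ => ?_⟩
    rw [Set.mem_ofPred_eq, Set.mem_ofPred_eq, ← h.trace p hp hpN A hA σ hσ,
      ← h.det p hp hpN A hA σ hσ]
    exact ⟨fun h => h.2, fun h => ⟨hpN, h⟩⟩

/-- The primes with `a_p = t` have a Dirichlet density. -/
theorem exists_density (hf : IsNormEigen ε f) (t : ℂ) :
    ∃ d : ℚ, 0 ≤ d ∧ HasDirichletDensity {p | ¬ p ∣ N ∧ qCoeff f p = t} d := by
  obtain ⟨r, h⟩ := exists_attached hf
  have h1 := h.density {x | x.1 = t}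
  refine ⟨(Nat.card {g : r.range | ((g : GL (Fin 2) ℂ).1.trace, (g : GL (Fin 2) ℂ).1.det) ∈
    {x : ℂ × ℂ | x.1 = t}} : ℚ) / Nat.card r.range, by positivity, ?_⟩
  push_cast
  exact h1

/-- A value which is taken by `(tr, det)` on the image of `r` is taken by `(a_p, ε(p))` on a set of
primes of positive density. -/
theorem Attached.density_pos (h : Attached ε f r) (T : Set (ℂ × ℂ)) (σ : Γℚ)
    (hσ : ((r σ).1.trace, (r σ).1.det) ∈ T) :
    ∃ d : ℚ, 0 < d ∧ HasDirichletDensity {p | ¬ p ∣ N ∧ (qCoeff f p, ε (p : ZMod N)) ∈ T} d := by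
  have := h.finite_range
  have h1 := h.density T
  refine ⟨(Nat.card {g : r.range | ((g : GL (Fin 2) ℂ).1.trace, (g : GL (Fin 2) ℂ).1.det) ∈ T} :
    ℚ) / Nat.card r.range, ?_, ?_⟩
  · have h2 : 0 < Nat.card {g : r.range |
        ((g : GL (Fin 2) ℂ).1.trace, (g : GL (Fin 2) ℂ).1.det) ∈ T} := by
      have : Nonempty {g : r.range |
        ((g : GL (Fin 2) ℂ).1.trace, (g : GL (Fin 2) ℂ).1.det) ∈ T} := ⟨⟨⟨r σ, ⟨σ, rfl⟩⟩, hσ⟩⟩
      exact Nat.card_pos
    have h3 : 0 < Nat.card r.range := Nat.card_pos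
    positivity
  · push_cast
    exact h1

/-- **`a_p = 0` (and `ε(p) = -1`) for a set of primes of positive density**, for every eigenform of
weight one. -/
theorem density_zero_pos (hf : IsNormEigen ε f) : ∃ d : ℚ, 0 < d ∧
    HasDirichletDensity {p | ¬ p ∣ N ∧ qCoeff f p = 0 ∧ ε (p : ZMod N) = -1} d := by
  obtain ⟨r, h⟩ := exists_attached hf
  exact h.density_pos {x | x.1 = 0 ∧ x.2 = -1} complexConjugation ⟨h.trace_cc hf, h.det_cc hf⟩

/-- `a_p = 2` and `ε(p) = 1` for a set of primes of positive density. -/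
theorem density_two_pos (hf : IsNormEigen ε f) : ∃ d : ℚ, 0 < d ∧
    HasDirichletDensity {p | ¬ p ∣ N ∧ qCoeff f p = 2 ∧ ε (p : ZMod N) = 1} d := by
  obtain ⟨r, h⟩ := exists_attached hf
  refine h.density_pos {x | x.1 = 2 ∧ x.2 = 1} 1 ⟨?_, ?_⟩
  · show (r 1).1.trace = 2
    rw [map_one, Units.val_one, Matrix.trace_one, Fintype.card_fin]
    norm_num
  · show (r 1).1.det = 1
    rw [map_one, Units.val_one, Matrix.det_one]

theorem infinite_zero (hf : IsNormEigen ε f) :
    {p : ℕ | p.Prime ∧ ¬ p ∣ N ∧ qCoeff f p = 0 ∧ ε (p : ZMod N) = -1}.Infinite := by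
  obtain ⟨d, hd, h⟩ := density_zero_pos hf
  exact h.infinite (by exact_mod_cast hd.ne')

theorem infinite_two (hf : IsNormEigen ε f) :
    {p : ℕ | p.Prime ∧ ¬ p ∣ N ∧ qCoeff f p = 2 ∧ ε (p : ZMod N) = 1}.Infinite := by
  obtain ⟨d, hd, h⟩ := density_two_pos hf
  exact h.infinite (by exact_mod_cast hd.ne')

end Fermat.Agent.Cor.WtOne

end
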