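import Fermat.Agent.Corollaries.WtOne.Lacunary
import Fermat.Agent.Corollaries.Pet.Ortho

/-!
# The space of all cusp forms of weight one

With the spectral theorem for the Petersson product (`Corollaries.Pet`):

* `density_tCusp_eq_zero`: the Hecke operator `T_p` is **zero** on `S₁(Γ₁(N))` for a set of primes
  of positive Dirichlet density;
* `inn_hecke_le`: `‖T_p f‖ ≤ 2 ‖f‖` in the Petersson norm, for every `f ∈ S₁(Γ₁(N))`, `p ∤ N`;
* `exists_bound`: for every `f ∈ S₁(Γ₁(N))` there is `C` with `|a_n(f)| ≤ C d(n)` for all `n` prime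
  to `N`.
-/

set_option autoImplicit false

noncomputable section

open CongruenceSubgroup UpperHalfPlane Function Filter Topology
open scoped MatrixGroups ModularForm

namespace Fermat.Agent.Cor.WtOne

open Fermat.Agent.X1 Fermat.Agent.HeckePar ModularFormClass Fermat.Agent.LT.End

variable {N : ℕ} [NeZero N]

/-- For the primes of `zeroPrimes N` the Hecke operator `T_p` is zero on `S₁(Γ₁(N))`. -/
theorem tCusp_eq_zero {p : ℕ} [hp : Fact p.Prime] (h : p ∈ zeroPrimes N) :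
    tCusp N (Gamma1 N) 1 p = 0 := by
  obtain ⟨n, hn⟩ := isNilpotent_tCusp h
  refine LinearMap.ext fun v => ?_
  have h1 := (Pet.diag_hecke (k := 1) (Gamma1 N) p h.1).eq_zero 0 (n + 1) (v := v)
  rw [map_zero, sub_zero, pow_succ', hn, mul_zero] at h1
  rw [h1 rfl (Nat.succ_ne_zero n), zero_smul]
  rfl

theorem mem_zeroPrimes_iff {p : ℕ} [hp : Fact p.Prime] :
    p ∈ zeroPrimes N ↔ ¬ p ∣ N ∧ tCusp N (Gamma1 N) 1 p = 0 := by
  constructor
  · intro h
    exact ⟨h.1, tCusp_eq_zero h⟩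
  · rintro ⟨h1, h2⟩
    refine ⟨h1, fun ε f hf => ?_⟩
    have h3 := qCoeff_tCusp (Gamma1 N) 1 p h1 f 1
    rw [if_neg hp.out.not_dvd_one, add_zero, one_mul, h2] at h3
    rw [← h3]
    exact (qLin N (Gamma1 N) 1 1).map_zero

/-- **`T_p = 0` on the space of all cusp forms of weight one on `Γ₁(N)`, for a set of primes of
positive density.** -/
theorem density_tCusp_eq_zero (N : ℕ) [NeZero N] : ∃ d : ℚ, 0 < d ∧ HasDirichletDensity
    {p | ∃ _ : Fact p.Prime, ¬ p ∣ N ∧ tCusp N (Gamma1 N) 1 p = 0} d := by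
  obtain ⟨d, hd, h⟩ := exists_density_zeroPrimes N
  refine ⟨d, hd, h.congr Set.finite_empty fun p hp _ => ?_⟩
  have hpF : Fact p.Prime := ⟨hp⟩
  exact ⟨fun h1 => ⟨hpF, mem_zeroPrimes_iff.mp h1⟩, fun h1 => mem_zeroPrimes_iff.mpr h1.2⟩

/-- **Ramanujan-Petersson in weight one, norm form**: `⟨T_p f, T_p f⟩ ≤ 4 ⟨f, f⟩` in the Petersson
product, for every cusp form `f` of weight one on `Γ₁(N)` and `p ∤ N`. -/
theorem inn_hecke_le (f : CuspForm (Gamma1 N) 1) {p : ℕ} [hp : Fact p.Prime] (hpN : ¬ p ∣ N) :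
    (Pet.inn 1 ⇑(tCusp N (Gamma1 N) 1 p f) ⇑(tCusp N (Gamma1 N) 1 p f)).re ≤
      4 * (Pet.inn 1 ⇑f ⇑f).re := by
  have h := Pet.inn_hecke_le (k := 1) (Gamma1 N) p hpN (c := 2)
    (fun a ha => norm_eigenvalue_le hpN ha) f
  norm_num at h
  exact h

/-! ### Coefficients -/

/-- A solution of the Hecke relations with `a 1 = 0` vanishes on the integers prime to `N`. -/
theorem eq_zero_of_rel {N : ℕ} {e t a : ℕ → ℂ} (h : ∀ p : ℕ, p.Prime → ¬ p ∣ N → ∀ n : ℕ,
    a (p * n) + e p * (if p ∣ n then a (n / p) else 0) = t p * a n) (h1 : a 1 = 0) {n : ℕ}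
    (hn0 : n ≠ 0) (hn : n.Coprime N) : a n = 0 := by
  induction n using Nat.strongRecOn with
  | ind n ih =>
    rcases Nat.lt_or_ge 1 n with hn1 | hn1
    · obtain ⟨p, hp, m, rfl⟩ := Nat.exists_prime_and_dvd hn1.ne'
      have hm0 : m ≠ 0 := by rintro rfl; exact hn0 (mul_zero p)
      have hpN : ¬ p ∣ N := fun h =>
        hp.one_lt.ne' (Nat.dvd_one.mp (hn ▸ Nat.dvd_gcd (dvd_mul_right p m) h))
      have hmN : m.Coprime N := Nat.Coprime.coprime_mul_left hn
      have hlt : m < p * m := by nlinarith [hp.two_le, Nat.pos_of_ne_zero hm0]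
      have h2 := h p hp hpN m
      rw [ih m hlt hm0 hmN, mul_zero] at h2
      have h3 : (if p ∣ m then a (m / p) else 0) = 0 := by
        split_ifs with hd
        · obtain ⟨m', rfl⟩ := hd
          rw [Nat.mul_div_cancel_left _ hp.pos]
          have hm'0 : m' ≠ 0 := by rintro rfl; exact hm0 (mul_zero p)
          refine ih m' ?_ hm'0 (Nat.Coprime.coprime_mul_left hmN)
          refine lt_of_le_of_lt ?_ hlt
          exact Nat.le_mul_of_pos_left m' hp.pos
        · rfl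
      rw [h3, mul_zero, add_zero] at h2
      exact h2
    · have : n = 1 := by omega
      rw [this, h1]

/-- The coefficients `a_n(g)`, `n` prime to `N`, of an eigenform `g` are `a_1(g)` times those of a
normalised eigenform. -/
theorem exists_coeff_eq {t : ℕ → ℂ} {ψ : (ZMod N)ˣ → ℂ} {g : CuspForm (Gamma1 N) 1} (hg0 : g ≠ 0)
    (hg : IsEig t ψ g) : ∃ (ε : DirichletCharacter ℂ N) (w : CuspForm (Gamma1 N) 1),
      IsNormEigen ε w ∧ ∀ n : ℕ, n ≠ 0 → n.Coprime N → qCoeff g n = qCoeff g 1 * qCoeff w n := by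
  obtain ⟨w, hw, hw1⟩ := exists_first hg0 hg
  obtain ⟨ε, hε⟩ := exists_character hg0 hg
  refine ⟨ε, w, (isNormEigen_of_isEig hw hw1 hε).1, fun n hn0 hn => ?_⟩
  have h1 := eq_zero_of_rel (N := N) (e := fun p => ψ (pUnit N p)) (t := t)
    (a := fun n => qCoeff g n - qCoeff g 1 * qCoeff w n) ?_ ?_ hn0 hn
  · exact sub_eq_zero.mp h1
  · intro p hp hpN n
    have hpF : Fact p.Prime := ⟨hp⟩
    have h2 := hg.coeff p hpN n
    have h3 := hw.coeff p hpN n
    by_cases hd : p ∣ n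
    · rw [if_pos hd] at h2 h3 ⊢
      linear_combination h2 - qCoeff g 1 * h3
    · rw [if_neg hd] at h2 h3 ⊢
      linear_combination h2 - qCoeff g 1 * h3
  · simp only [hw1, mul_one, sub_self]

/-- **The bound for all cusp forms of weight one**: for every `f ∈ S₁(Γ₁(N))` there is a constant `C`
with `|a_n(f)| ≤ C d(n)` for all `n` prime to `N`. -/
theorem exists_bound (f : CuspForm (Gamma1 N) 1) : ∃ C : ℝ, ∀ n : ℕ, n ≠ 0 → n.Coprime N →
    ‖qCoeff f n‖ ≤ C * n.divisors.card := by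
  classical
  obtain ⟨s, g, hg, hf⟩ := Pet.exists_sum_eigenforms (N := N) (Gamma1 N) f
  refine ⟨∑ χ ∈ s, ‖qCoeff (g χ) 1‖, fun n hn0 hn => ?_⟩
  have h1 : qCoeff f n = ∑ χ ∈ s, qCoeff (g χ) n := by
    have h2 := congrArg (qLin N (Gamma1 N) 1 n) hf
    rw [map_sum] at h2
    exact h2
  rw [h1, Finset.sum_mul]
  refine (norm_sum_le _ _).trans (Finset.sum_le_sum fun χ _ => ?_)
  by_cases hχ : g χ = 0
  · have h2 : ∀ m, qCoeff ⇑(g χ) m = 0 := fun m => by
      rw [hχ]
      exact (qLin N (Gamma1 N) 1 m).map_zero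
    rw [h2, h2, norm_zero, zero_mul]
  · have hE : IsEig (fun p => if h : p.Prime ∧ ¬ p ∣ N then χ (.inl ⟨p, h⟩) else 0)
        (fun u => χ (.inr u)) (g χ) := by
      refine ⟨fun p hp hpN => ?_, fun u => hg χ (.inr u)⟩
      rw [dif_pos ⟨hp.out, hpN⟩]
      exact hg χ (.inl ⟨p, hp.out, hpN⟩)
    obtain ⟨ε, w, hw, hc⟩ := exists_coeff_eq hχ hE
    rw [hc n hn0 hn, norm_mul]
    exact mul_le_mul_of_nonneg_left (norm_qCoeff_le hw hn0 hn) (norm_nonneg _)

end Fermat.Agent.Cor.WtOne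

end
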