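import Fermat.Agent.S48
import Fermat.Agent.LT.End.Eigen
import Fermat.Agent.LT.End.GLTwoThree
import Fermat.Agent.DS.Irred

/-!
# Ramanujan-Petersson in weight one

Consequences of the theorem of Deligne and Serre (`S48`): for a normalised eigenform
`f = ∑ a_n q^n` of weight one, level `N` and character `ε`

* `exists_roots`: there is `m ≠ 0` such that `a_p = z + w` and `ε(p) = z w` with `m`-th roots of
  unity `z, w`, for all primes `p ∤ N`;
* `norm_qCoeff_prime_le`: `|a_p| ≤ 2`; `norm_qCoeff_le`: `|a_n| ≤ d(n)` for `n` prime to `N`;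
* `finite_values`: the `a_p` take finitely many values; `isIntegral_qCoeff`: they are algebraic
  integers, as all `a_n`, `n` prime to `N`;
* `norm_eigenvalue_le`: every eigenvalue of the operator `T_p` on `S₁(Γ₁(N))`, `p ∤ N`, has absolute
  value at most `2`.
-/

set_option autoImplicit false

noncomputable section

open CongruenceSubgroup UpperHalfPlane Function
open scoped MatrixGroups ModularForm

namespace Fermat.Agent.Cor.WtOne

open Fermat.Agent.X1 Fermat.Agent.HeckePar ModularFormClass Fermat.Agent.LT.End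

local notation "Γℚ" => (AlgebraicClosure ℚ ≃ₐ[ℚ] AlgebraicClosure ℚ)

/-! ### Formal part -/

section Formal

variable {a e : ℕ → ℂ} {N : ℕ}

/-- The relations of the Hecke operators `T_p`, `p ∤ N`, for a sequence with character values
`e p`. -/
def Rel (N : ℕ) (e a : ℕ → ℂ) : Prop :=
  ∀ p : ℕ, p.Prime → ¬ p ∣ N → ∀ n : ℕ,
    a (p * n) + e p * (if p ∣ n then a (n / p) else 0) = a p * a n

theorem Rel.pow_add_two (h : Rel N e a) {p : ℕ} (hp : p.Prime) (hpN : ¬ p ∣ N) (m k : ℕ) :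
    a (p ^ (k + 2) * m) + e p * a (p ^ k * m) = a p * a (p ^ (k + 1) * m) := by
  have h1 := h p hp hpN (p ^ (k + 1) * m)
  rw [if_pos ((dvd_pow_self p k.succ_ne_zero).mul_right m)] at h1
  have h2 : p ^ (k + 1) * m / p = p ^ k * m := by
    rw [pow_succ, mul_assoc, mul_comm p m, ← mul_assoc, Nat.mul_div_cancel _ hp.pos]
  rw [h2, ← mul_assoc, ← pow_succ'] at h1
  exact h1

/-- `a (p ^ k m) = a (p ^ k) a (m)` for `p ∤ m`. -/
theorem Rel.mul_of_not_dvd (h : Rel N e a) (h1 : a 1 = 1) {p : ℕ} (hp : p.Prime) (hpN : ¬ p ∣ N)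
    {m : ℕ} (hm : ¬ p ∣ m) (k : ℕ) : a (p ^ k * m) = a (p ^ k) * a m := by
  induction k using Nat.strongRecOn with
  | ind k ih =>
    match k with
    | 0 => rw [pow_zero, one_mul, h1, one_mul]
    | 1 =>
      have h2 := h p hp hpN m
      rw [if_neg hm, mul_zero, add_zero] at h2
      rw [pow_one, h2]
    | k + 2 =>
      have h2 := h.pow_add_two hp hpN m k
      have h3 := h.pow_add_two hp hpN 1 k
      rw [mul_one, mul_one, mul_one] at h3
      rw [ih k (by omega), ih (k + 1) (by omega)] at h2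
      linear_combination h2 - a m * h3

/-- The power sum form: `a (p ^ (k + 1)) = z a (p ^ k) + w ^ (k + 1)` if `a p = z + w` and
`e p = z w`. -/
theorem Rel.pow_succ_eq (h : Rel N e a) (h1 : a 1 = 1) {p : ℕ} (hp : p.Prime) (hpN : ¬ p ∣ N)
    {z w : ℂ} (hz : a p = z + w) (hw : e p = z * w) (k : ℕ) :
    a (p ^ (k + 1)) = z * a (p ^ k) + w ^ (k + 1) := by
  induction k with
  | zero => rw [zero_add, pow_one, pow_zero, h1, hz]; ring
  | succ k ih =>
    have h2 := h.pow_add_two hp hpN 1 k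
    rw [mul_one, mul_one, mul_one, hz, hw] at h2
    have h3 : a (p ^ (k + 1 + 1)) = (z + w) * a (p ^ (k + 1)) - z * w * a (p ^ k) := by
      linear_combination h2
    rw [h3, pow_succ w (k + 1)]
    linear_combination w * ih

theorem norm_pow_le (h : Rel N e a) (h1 : a 1 = 1) {p : ℕ} (hp : p.Prime) (hpN : ¬ p ∣ N)
    {z w : ℂ} (hz : a p = z + w) (hw : e p = z * w) (hz1 : ‖z‖ ≤ 1) (hw1 : ‖w‖ ≤ 1) (k : ℕ) :
    ‖a (p ^ k)‖ ≤ k + 1 := by
  induction k with
  | zero => rw [pow_zero, h1, norm_one, Nat.cast_zero, zero_add]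
  | succ k ih =>
    rw [h.pow_succ_eq h1 hp hpN hz hw k]
    refine (norm_add_le _ _).trans ?_
    rw [norm_mul, norm_pow]
    have h2 : ‖z‖ * ‖a (p ^ k)‖ ≤ 1 * ((k : ℝ) + 1) :=
      mul_le_mul hz1 ih (norm_nonneg _) zero_le_one
    have h3 : ‖w‖ ^ (k + 1) ≤ 1 := pow_le_one₀ (norm_nonneg _) hw1
    push_cast
    linarith

/-- Induction over the numbers prime to `N`. -/
theorem induction_coprime {P : ℕ → Prop} (h1 : P 1)
    (hmul : ∀ p : ℕ, p.Prime → ¬ p ∣ N → ∀ k : ℕ, k ≠ 0 → ∀ m : ℕ, m ≠ 0 → ¬ p ∣ m → m.Coprime N →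
      P m → P (p ^ k * m)) {n : ℕ} (hn0 : n ≠ 0) (hn : n.Coprime N) : P n := by
  induction n using Nat.strongRecOn with
  | ind n ih =>
    rcases Nat.lt_or_ge 1 n with hn1 | hn1
    · obtain ⟨p, hp, hpn⟩ := Nat.exists_prime_and_dvd hn1.ne'
      obtain ⟨k, m, hm, hnk⟩ := Nat.exists_eq_pow_mul_and_not_dvd hn0 p hp.ne_one
      have hk : k ≠ 0 := by
        rintro rfl
        rw [pow_zero, one_mul] at hnk
        exact hm (hnk ▸ hpn)
      have hm0 : m ≠ 0 := by
        rintro rfl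
        exact hm (dvd_zero p)
      have hmN : m.Coprime N := by
        rw [hnk] at hn
        exact Nat.Coprime.coprime_mul_left hn
      have hpN : ¬ p ∣ N := fun h =>
        hp.one_lt.ne' (Nat.dvd_one.mp (hn ▸ Nat.dvd_gcd hpn h))
      have hlt : m < n := by
        rw [hnk]
        have h2 : 2 ≤ p ^ k := hp.two_le.trans (Nat.le_self_pow hk p)
        nlinarith [Nat.pos_of_ne_zero hm0]
      rw [hnk]
      exact hmul p hp hpN k hk m hm0 hm hmN (ih m hlt hm0 hmN)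
    · have : n = 1 := by omega
      rwa [this]

/-- `|a n| ≤ d(n)` for `n` prime to `N`. -/
theorem norm_le_card_divisors (h : Rel N e a) (h1 : a 1 = 1)
    (hzw : ∀ p : ℕ, p.Prime → ¬ p ∣ N → ∃ z w : ℂ, ‖z‖ ≤ 1 ∧ ‖w‖ ≤ 1 ∧ a p = z + w ∧ e p = z * w)
    {n : ℕ} (hn0 : n ≠ 0) (hn : n.Coprime N) : ‖a n‖ ≤ n.divisors.card := by
  refine induction_coprime (P := fun n => ‖a n‖ ≤ n.divisors.card) ?_ ?_ hn0 hn
  · simp [h1]
  · intro p hp hpN k hk m hm0 hm hmN ih
    obtain ⟨z, w, hz1, hw1, hz, hw⟩ := hzw p hp hpN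
    have hcop : (p ^ k).Coprime m := Nat.Coprime.pow_left k ((Nat.Prime.coprime_iff_not_dvd hp).mpr hm)
    show ‖a (p ^ k * m)‖ ≤ ((p ^ k * m).divisors.card : ℝ)
    rw [h.mul_of_not_dvd h1 hp hpN hm k, norm_mul, hcop.card_divisors_mul,
      Nat.divisors_prime_pow hp, Finset.card_map, Finset.card_range, Nat.cast_mul]
    refine mul_le_mul ?_ ih (norm_nonneg _) (Nat.cast_nonneg _)
    push_cast
    exact norm_pow_le h h1 hp hpN hz hw hz1 hw1 k

/-- The `a n`, `n` prime to `N`, are in every ring which contains the `a p` and the `e p`. -/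
theorem mem_subring (h : Rel N e a) (h1 : a 1 = 1) (R : Subring ℂ)
    (ha : ∀ p : ℕ, p.Prime → ¬ p ∣ N → a p ∈ R) (he : ∀ p : ℕ, p.Prime → ¬ p ∣ N → e p ∈ R)
    {n : ℕ} (hn0 : n ≠ 0) (hn : n.Coprime N) : a n ∈ R := by
  refine induction_coprime (P := fun n => a n ∈ R) ?_ ?_ hn0 hn
  · show a 1 ∈ R
    rw [h1]
    exact R.one_mem
  · intro p hp hpN k hk m hm0 hm hmN ih
    show a (p ^ k * m) ∈ R
    rw [h.mul_of_not_dvd h1 hp hpN hm k]
    refine R.mul_mem ?_ ih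
    clear hk
    induction k using Nat.strongRecOn with
    | ind k ih2 =>
      match k with
      | 0 => rw [pow_zero, h1]; exact R.one_mem
      | 1 => rw [pow_one]; exact ha p hp hpN
      | k + 2 =>
        have h2 := h.pow_add_two hp hpN 1 k
        rw [mul_one, mul_one, mul_one] at h2
        have h3 : a (p ^ (k + 2)) = a p * a (p ^ (k + 1)) - e p * a (p ^ k) := by
          linear_combination h2
        rw [h3]
        exact R.sub_mem (R.mul_mem (ha p hp hpN) (ih2 (k + 1) (by omega)))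
          (R.mul_mem (he p hp hpN) (ih2 k (by omega)))

end Formal

/-! ### Weight one eigenforms -/

variable {N : ℕ} [NeZero N]

/-- A normalised eigenform of weight one, level `N` and character `ε` (for the `T_p` with
`p ∤ N`): the hypotheses of `S48`. -/
structure IsNormEigen (ε : DirichletCharacter ℂ N) (f : CuspForm (Gamma1 N) 1) : Prop where
  one : qCoeff f 1 = 1
  rel : ∀ p : ℕ, p.Prime → ¬ p ∣ N → ∀ n : ℕ,
    qCoeff f (p * n) + ε (p : ZMod N) * (if p ∣ n then qCoeff f (n / p) else 0) =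
      qCoeff f p * qCoeff f n

variable {ε : DirichletCharacter ℂ N} {f : CuspForm (Gamma1 N) 1}

omit [NeZero N] in
theorem IsNormEigen.toRel (hf : IsNormEigen ε f) :
    Rel N (fun p => ε (p : ZMod N)) (fun n => qCoeff f n) := hf.rel

/-- Every `T_p`-, `<d>`-eigenform is, up to a scalar and up to passing to another form with the same
eigenvalues, a normalised one. -/
theorem isNormEigen_of_isEig {t : ℕ → ℂ} {ψ : (ZMod N)ˣ → ℂ} {w : CuspForm (Gamma1 N) 1}
    (hw : IsEig t ψ w) (hw1 : qCoeff w 1 = 1) (hε : ∀ u : (ZMod N)ˣ, ε (u : ZMod N) = ψ u) :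
    IsNormEigen ε w ∧ ∀ p : ℕ, p.Prime → ¬ p ∣ N → qCoeff w p = t p := by
  have hwp : ∀ p : ℕ, p.Prime → ¬ p ∣ N → t p = qCoeff w p := by
    intro p hp hpN
    have hpF : Fact p.Prime := ⟨hp⟩
    have h4 := hw.coeff p hpN 1
    rw [if_neg hp.not_dvd_one, mul_zero, add_zero, mul_one, hw1, mul_one] at h4
    exact h4.symm
  refine ⟨⟨hw1, fun p hp hpN n => ?_⟩, fun p hp hpN => (hwp p hp hpN).symm⟩
  have hpF : Fact p.Prime := ⟨hp⟩
  have hcop : p.Coprime N := (Nat.Prime.coprime_iff_not_dvd hp).mpr hpN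
  have h1 := hw.coeff p hpN n
  rw [← hε, coe_pUnit hcop] at h1
  rw [← hwp p hp hpN]
  exact h1

/-- **Deligne-Serre: the Hecke eigenvalues in weight one are sums of two roots of unity**, of
bounded order. -/
theorem exists_roots (hf : IsNormEigen ε f) : ∃ m : ℕ, m ≠ 0 ∧ ∀ p : ℕ, p.Prime → ¬ p ∣ N →
    ∃ z w : ℂ, z ^ m = 1 ∧ w ^ m = 1 ∧ qCoeff f p = z + w ∧ ε (p : ZMod N) = z * w := by
  obtain ⟨r, hr, -, hrp⟩ := S48.result N ε f hf.one hf.rel
  have hfin : Finite r.range := DS.finite_range_of_factors hr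
  refine ⟨Nat.card r.range, Nat.card_pos.ne', fun p hp hpN => ?_⟩
  obtain ⟨A, hA, σ, hσ⟩ := Frob.exists_frobenius p hp
  have h1 : (r σ).1 ^ Nat.card r.range = 1 := by
    have h2 : (⟨r σ, ⟨σ, rfl⟩⟩ : r.range) ^ Nat.card r.range = 1 := pow_card_eq_one'
    have h3 := congrArg Subtype.val h2
    rw [← Units.val_pow_eq_pow_val]
    exact congrArg Units.val h3
  obtain ⟨z, w, hz, hw, ht, hd⟩ := exists_eigenvalues h1
  obtain ⟨h4, h5⟩ := (hrp p hp hpN A hA).2 σ hσ
  exact ⟨z, w, hz, hw, h4.symm.trans ht, h5.symm.trans hd⟩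

theorem exists_norm_one (hf : IsNormEigen ε f) {p : ℕ} (hp : p.Prime) (hpN : ¬ p ∣ N) :
    ∃ z w : ℂ, ‖z‖ = 1 ∧ ‖w‖ = 1 ∧ qCoeff f p = z + w ∧ ε (p : ZMod N) = z * w := by
  obtain ⟨m, hm, h⟩ := exists_roots hf
  obtain ⟨z, w, hz, hw, h1, h2⟩ := h p hp hpN
  exact ⟨z, w, Complex.norm_eq_one_of_pow_eq_one hz hm, Complex.norm_eq_one_of_pow_eq_one hw hm,
    h1, h2⟩

/-- **The Ramanujan-Petersson conjecture in weight one**: `|a_p| ≤ 2`. -/
theorem norm_qCoeff_prime_le (hf : IsNormEigen ε f) {p : ℕ} (hp : p.Prime) (hpN : ¬ p ∣ N) :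
    ‖qCoeff f p‖ ≤ 2 := by
  obtain ⟨z, w, hz, hw, h1, -⟩ := exists_norm_one hf hp hpN
  rw [h1]
  refine (norm_add_le _ _).trans ?_
  rw [hz, hw]
  norm_num

/-- `|a_n| ≤ d(n)` for `n` prime to the level. -/
theorem norm_qCoeff_le (hf : IsNormEigen ε f) {n : ℕ} (hn0 : n ≠ 0) (hn : n.Coprime N) :
    ‖qCoeff f n‖ ≤ n.divisors.card :=
  norm_le_card_divisors hf.toRel hf.one (fun p hp hpN => by
    obtain ⟨z, w, hz, hw, h1, h2⟩ := exists_norm_one hf hp hpN
    exact ⟨z, w, hz.le, hw.le, h1, h2⟩) hn0 hn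

/-- The eigenvalues `a_p`, `p ∤ N`, of a weight one eigenform take finitely many values. -/
theorem finite_values (hf : IsNormEigen ε f) :
    {t : ℂ | ∃ p : ℕ, p.Prime ∧ ¬ p ∣ N ∧ qCoeff f p = t}.Finite := by
  obtain ⟨m, hm, h⟩ := exists_roots hf
  have : NeZero m := ⟨hm⟩
  have hfin : {z : ℂ | z ^ m = 1}.Finite := by
    have h1 : {z : ℂ | z ^ m = 1} = ↑(Polynomial.nthRootsFinset m (1 : ℂ)) := by
      ext z
      simp [Polynomial.mem_nthRootsFinset (Nat.pos_of_ne_zero hm)]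
    rw [h1]
    exact Finset.finite_toSet _
  refine ((hfin.prod hfin).image fun x : ℂ × ℂ => x.1 + x.2).subset ?_
  rintro t ⟨p, hp, hpN, rfl⟩
  obtain ⟨z, w, hz, hw, h1, -⟩ := h p hp hpN
  exact ⟨(z, w), ⟨hz, hw⟩, h1.symm⟩

/-- The coefficients `a_n`, `n` prime to the level, of a weight one eigenform are algebraic
integers. -/
theorem isIntegral_qCoeff (hf : IsNormEigen ε f) {n : ℕ} (hn0 : n ≠ 0) (hn : n.Coprime N) :
    IsIntegral ℤ (qCoeff f n) := by
  obtain ⟨m, hm, h⟩ := exists_roots hf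
  have hi : ∀ z : ℂ, z ^ m = 1 → IsIntegral ℤ z := fun z hz => by
    refine IsIntegral.of_pow (Nat.pos_of_ne_zero hm) ?_
    rw [hz]
    exact isIntegral_one
  refine mem_subring hf.toRel hf.one (integralClosure ℤ ℂ).toSubring ?_ ?_ hn0 hn
  · intro p hp hpN
    obtain ⟨z, w, hz, hw, h1, -⟩ := h p hp hpN
    show IsIntegral ℤ (qCoeff f p)
    rw [h1]
    exact (hi z hz).add (hi w hw)
  · intro p hp hpN
    obtain ⟨z, w, hz, hw, -, h2⟩ := h p hp hpN
    show IsIntegral ℤ (ε (p : ZMod N))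
    rw [h2]
    exact (hi z hz).mul (hi w hw)

/-- The coefficients `a_n`, `n` prime to the level, of a weight one eigenform are in one cyclotomic
ring `ℤ[ζ]`. -/
theorem exists_cyclotomic (hf : IsNormEigen ε f) : ∃ (m : ℕ) (ζ : ℂ), m ≠ 0 ∧
    IsPrimitiveRoot ζ m ∧ ∀ n : ℕ, n ≠ 0 → n.Coprime N → qCoeff f n ∈ Algebra.adjoin ℤ {ζ} := by
  obtain ⟨m, hm, h⟩ := exists_roots hf
  have : NeZero m := ⟨hm⟩
  have hζ := Complex.isPrimitiveRoot_exp m hm
  have hi : ∀ z : ℂ, z ^ m = 1 → z ∈ (Algebra.adjoin ℤ {Complex.exp (2 * Real.pi * Complex.I / m)} :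
      Subalgebra ℤ ℂ) := fun z hz => by
    obtain ⟨i, -, rfl⟩ := hζ.eq_pow_of_pow_eq_one hz
    exact Subalgebra.pow_mem _ (Algebra.subset_adjoin (Set.mem_singleton _)) i
  refine ⟨m, _, hm, hζ, fun n hn0 hn => ?_⟩
  refine mem_subring hf.toRel hf.one
    (Algebra.adjoin ℤ {Complex.exp (2 * Real.pi * Complex.I / m)}).toSubring ?_ ?_ hn0 hn
  · intro p hp hpN
    obtain ⟨z, w, hz, hw, h1, -⟩ := h p hp hpN
    show qCoeff f p ∈ (Algebra.adjoin ℤ {Complex.exp (2 * Real.pi * Complex.I / m)} :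
      Subalgebra ℤ ℂ)
    rw [h1]
    exact Subalgebra.add_mem _ (hi z hz) (hi w hw)
  · intro p hp hpN
    obtain ⟨z, w, hz, hw, -, h2⟩ := h p hp hpN
    show ε (p : ZMod N) ∈ (Algebra.adjoin ℤ {Complex.exp (2 * Real.pi * Complex.I / m)} :
      Subalgebra ℤ ℂ)
    rw [h2]
    exact Subalgebra.mul_mem _ (hi z hz) (hi w hw)

/-- Every eigenvalue of `T_p` on `S₁(Γ₁(N))`, `p ∤ N`, is the `p`-th coefficient of a normalised
eigenform. -/
theorem exists_isNormEigen_of_eigenvalue {p : ℕ} [hp : Fact p.Prime] (hpN : ¬ p ∣ N) {t : ℂ}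
    (ht : Module.End.HasEigenvalue (tCusp N (Gamma1 N) 1 p) t) :
    ∃ (ε : DirichletCharacter ℂ N) (g : CuspForm (Gamma1 N) 1), IsNormEigen ε g ∧
      qCoeff g p = t := by
  obtain ⟨v, hv⟩ := ht.exists_hasEigenvector
  obtain ⟨t', ψ, u, hu0, hu, htu⟩ := exists_isEig v hv.2 {p} (fun _ => t) (by
    intro q hq hqN hqp
    obtain rfl : q = p := hqp
    exact hv.apply_eq_smul)
  obtain ⟨w, hw, hw1⟩ := exists_first hu0 hu
  obtain ⟨ε, hε⟩ := exists_character hu0 hu
  obtain ⟨h1, h2⟩ := isNormEigen_of_isEig hw hw1 hε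
  exact ⟨ε, w, h1, (h2 p hp.out hpN).trans (htu p hp.out hpN rfl)⟩

/-- **Ramanujan-Petersson in weight one, operator form**: the eigenvalues of the Hecke operator
`T_p` on the space of all cusp forms of weight one on `Γ₁(N)`, `p ∤ N`, have absolute value at
most `2`. -/
theorem norm_eigenvalue_le {p : ℕ} [hp : Fact p.Prime] (hpN : ¬ p ∣ N) {t : ℂ}
    (ht : Module.End.HasEigenvalue (tCusp N (Gamma1 N) 1 p) t) : ‖t‖ ≤ 2 := by
  obtain ⟨ε, g, hg, rfl⟩ := exists_isNormEigen_of_eigenvalue hpN ht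
  exact norm_qCoeff_prime_le hg hp.out hpN

/-- The eigenvalues of `T_p` on `S₁(Γ₁(N))`, `p ∤ N`, are algebraic integers. -/
theorem isIntegral_eigenvalue {p : ℕ} [hp : Fact p.Prime] (hpN : ¬ p ∣ N) {t : ℂ}
    (ht : Module.End.HasEigenvalue (tCusp N (Gamma1 N) 1 p) t) : IsIntegral ℤ t := by
  obtain ⟨ε, g, hg, rfl⟩ := exists_isNormEigen_of_eigenvalue hpN ht
  exact isIntegral_qCoeff hg hp.out.ne_zero ((Nat.Prime.coprime_iff_not_dvd hp.out).mpr hpN)

end Fermat.Agent.Cor.WtOne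

end
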