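import Fermat.Agent.Corollaries.WtOne.Density

/-!
# Strong multiplicity one and the mean square in weight one

* `mean_square`: `∑ |a_p|² p^{-s} / log (1 / (s - 1)) → 1`: the mean value of `|a_p|²` is `1`;
* `eq_of_density`: if the primes with `a_p(f) ≠ a_p(g)` have density `< 1/8` then `a_p(f) = a_p(g)`
  for all `p` prime to the levels (and the characters agree);
* `strong_multiplicity_one`: the same if `a_p(f) = a_p(g)` for almost all `p`.
-/

set_option autoImplicit false

noncomputable section

open CongruenceSubgroup UpperHalfPlane Function Filter Topology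
open scoped MatrixGroups ModularForm ComplexConjugate

namespace Fermat.Agent.Cor.WtOne

open Fermat.Agent.X1 Fermat.Agent.HeckePar ModularFormClass Fermat.Agent.LT.End

local notation "Γℚ" => (AlgebraicClosure ℚ ≃ₐ[ℚ] AlgebraicClosure ℚ)

/-! ### Characters of two-dimensional representations of finite groups -/

section Char

variable {G : Type} [Group G]

theorem character_eq (S : G →* GL (Fin 2) ℂ) (g : G) :
    (Deformation.matrixRepresentation S).character g = (S g).1.trace := by
  rw [Representation.character, Deformation.matrixRepresentation_apply]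
  exact LinearMap.trace_eq_matrix_trace ℂ (Pi.basisFun ℂ (Fin 2)) _ |>.trans (by
    congr 1
    rw [← Matrix.toLin'_apply', LinearMap.toMatrix_eq_toMatrix', LinearMap.toMatrix'_toLin'])

theorem trace_inv_eq_conj [Finite G] (S : G →* GL (Fin 2) ℂ) (g : G) :
    (S g⁻¹).1.trace = conj (S g).1.trace := by
  have h1 : (S g).1 ^ Nat.card G = 1 := by
    rw [← Units.val_pow_eq_pow_val, ← map_pow, pow_card_eq_one', map_one, Units.val_one]
  have hn : Nat.card G ≠ 0 := Nat.card_pos.ne'
  obtain ⟨z, w, hz, hw, ht, hd⟩ := exists_eigenvalues h1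
  have hz1 := Complex.norm_eq_one_of_pow_eq_one hz hn
  have hw1 := Complex.norm_eq_one_of_pow_eq_one hw hn
  have hzc : z * conj z = 1 := by rw [Complex.mul_conj, Complex.normSq_eq_norm_sq, hz1]; norm_num
  have hwc : w * conj w = 1 := by rw [Complex.mul_conj, Complex.normSq_eq_norm_sq, hw1]; norm_num
  have h2 : (S g⁻¹).1 * (S g).1 = 1 := by
    rw [← Units.val_mul, ← map_mul, inv_mul_cancel, map_one, Units.val_one]
  set M := (S g).1
  set M' := (S g⁻¹).1
  have e : ∀ i j, (M' * M) i j = (1 : Matrix (Fin 2) (Fin 2) ℂ) i j := fun i j => by rw [h2]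
  have e00 := e 0 0
  have e01 := e 0 1
  have e10 := e 1 0
  have e11 := e 1 1
  simp only [Matrix.mul_apply, Fin.sum_univ_two, Matrix.one_apply_eq, ne_eq, zero_ne_one,
    not_false_eq_true, Matrix.one_apply_ne, one_ne_zero] at e00 e01 e10 e11
  rw [Matrix.det_fin_two] at hd
  rw [Matrix.trace_fin_two] at ht
  have h3 : M'.trace * (z * w) = z + w := by
    rw [Matrix.trace_fin_two, ← hd, ← ht]
    linear_combination M 1 1 * e00 - M 1 0 * e01 + M 0 0 * e11 - M 0 1 * e10
  have h4 : M'.trace = conj z + conj w := by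
    have h5 : M'.trace * (z * w) * (conj z * conj w) = (z + w) * (conj z * conj w) := by rw [h3]
    linear_combination h5 + (-M'.trace * (w * conj w)) * hzc + (-M'.trace) * hwc +
      conj w * hzc + conj z * hwc
  have h6 : M.trace = z + w := by rw [Matrix.trace_fin_two, ht]
  rw [h4, h6, map_add]

/-- Irreducibility only depends on the image. -/
theorem isIrreducible_of_surjective {Γ : Type} [Group Γ] {ψ : Γ →* G}
    (_hψ : Function.Surjective ψ) {S : G →* GL (Fin 2) ℂ} {r : Γ →* GL (Fin 2) ℂ}
    (hr : ∀ σ, S (ψ σ) = r σ) (h : (Deformation.matrixRepresentation r).IsIrreducible) :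
    (Deformation.matrixRepresentation S).IsIrreducible := by
  have key : ∀ W : Subrepresentation (Deformation.matrixRepresentation S),
      ∃ W' : Subrepresentation (Deformation.matrixRepresentation r),
        W'.toSubmodule = W.toSubmodule := by
    intro W
    refine ⟨⟨W.toSubmodule, fun σ v hv => ?_⟩, rfl⟩
    have h1 := W.apply_mem_toSubmodule (ψ σ) hv
    rw [Deformation.matrixRepresentation_apply, hr] at h1
    rwa [Deformation.matrixRepresentation_apply]
  have hnt : Nontrivial (Subrepresentation (Deformation.matrixRepresentation S)) := by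
    refine ⟨⊥, ⊤, fun h => ?_⟩
    have h1 := congrArg Subrepresentation.toSubmodule h
    have h2 : (⊥ : Submodule ℂ (Fin 2 → ℂ)) = ⊤ := h1
    exact bot_ne_top h2
  refine { hnt with eq_bot_or_eq_top := fun W => ?_ }
  obtain ⟨W', hW'⟩ := key W
  rcases h.eq_bot_or_eq_top W' with h1 | h1
  · left
    apply Subrepresentation.toSubmodule_injective
    rw [← hW', h1]
    rfl
  · right
    apply Subrepresentation.toSubmodule_injective
    rw [← hW', h1]
    rfl

theorem sum_trace_mul [Fintype G] (S T : G →* GL (Fin 2) ℂ)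
    (hS : (Deformation.matrixRepresentation S).IsIrreducible)
    (hT : (Deformation.matrixRepresentation T).IsIrreducible) :
    (∑ g : G, (S g).1.trace * conj (T g).1.trace = Fintype.card G ∧
      ∀ g, (S g).1.trace = (T g).1.trace) ∨
    ∑ g : G, (S g).1.trace * conj (T g).1.trace = 0 := by
  classical
  have hne : (Nat.card G : ℂ) ≠ 0 := by exact_mod_cast Nat.card_pos.ne'
  have : Invertible (Nat.card G : ℂ) := invertibleOfNonzero hne
  have h1 := Representation.char_orthonormal (Deformation.matrixRepresentation S)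
    (Deformation.matrixRepresentation T)
  have h2 : ∀ g : G, (Deformation.matrixRepresentation S).character g *
      (Deformation.matrixRepresentation T).character g⁻¹ =
      (S g).1.trace * conj (T g).1.trace := fun g => by
    rw [character_eq, character_eq, trace_inv_eq_conj]
  rw [Finset.sum_congr rfl fun g _ => h2 g] at h1
  by_cases h : Nonempty ((Deformation.matrixRepresentation T).Equiv
      (Deformation.matrixRepresentation S))
  · rw [if_pos h] at h1
    left
    refine ⟨?_, fun g => ?_⟩
    · rw [← Nat.card_eq_fintype_card]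
      have h3 := congrArg (fun x => (Nat.card G : ℂ) * x) h1
      simp only [mul_inv_cancel_left₀ hne, mul_one] at h3
      exact h3
    · obtain ⟨φ⟩ := h
      have h3 := congrFun (Representation.char_iso φ) g
      rw [character_eq, character_eq] at h3
      exact h3.symm
  · rw [if_neg h] at h1
    right
    exact (mul_eq_zero.mp h1).resolve_left (inv_ne_zero hne)

/-- `∑ |tr g|² = |G|` for an irreducible representation. -/
theorem sum_norm_sq [Fintype G] (S : G →* GL (Fin 2) ℂ)
    (hS : (Deformation.matrixRepresentation S).IsIrreducible) :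
    ∑ g : G, ‖(S g).1.trace‖ ^ 2 = Fintype.card G := by
  have h0 : ∀ g : G, (S g).1.trace * conj (S g).1.trace = ((‖(S g).1.trace‖ ^ 2 : ℝ) : ℂ) :=
    fun g => by rw [Complex.mul_conj, Complex.normSq_eq_norm_sq]
  rcases sum_trace_mul S S hS hS with ⟨h, -⟩ | h
  · rw [Finset.sum_congr rfl fun g _ => h0 g, ← Complex.ofReal_sum] at h
    exact_mod_cast h
  · exfalso
    rw [Finset.sum_congr rfl fun g _ => h0 g, ← Complex.ofReal_sum] at h
    have h1 : ∑ g : G, ‖(S g).1.trace‖ ^ 2 = 0 := by exact_mod_cast h
    have h2 := (Finset.sum_eq_zero_iff_of_nonneg (fun g _ => by positivity)).mp h1 1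
      (Finset.mem_univ _)
    rw [map_one, Units.val_one, Matrix.trace_one, Fintype.card_fin] at h2
    norm_num at h2

/-- Two irreducible two-dimensional representations whose traces differ on less than `1/8` of the
group have the same traces. -/
theorem trace_eq_of_card_lt [Fintype G] (S T : G →* GL (Fin 2) ℂ)
    (hS : (Deformation.matrixRepresentation S).IsIrreducible)
    (hT : (Deformation.matrixRepresentation T).IsIrreducible)
    (hlt : 8 * Nat.card {g : G | (S g).1.trace ≠ (T g).1.trace} < Nat.card G) (g : G) :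
    (S g).1.trace = (T g).1.trace := by
  classical
  rcases sum_trace_mul S T hS hT with ⟨-, h⟩ | h
  · exact h g
  · exfalso
    have hle : ∀ (R : G →* GL (Fin 2) ℂ) (g : G), ‖(R g).1.trace‖ ≤ 2 := by
      intro R g
      have h1 : (R g).1 ^ Nat.card G = 1 := by
        rw [← Units.val_pow_eq_pow_val, ← map_pow, pow_card_eq_one', map_one, Units.val_one]
      obtain ⟨z, w, hz, hw, ht, -⟩ := exists_eigenvalues h1
      rw [ht]
      refine (norm_add_le _ _).trans ?_
      rw [Complex.norm_eq_one_of_pow_eq_one hz Nat.card_pos.ne',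
        Complex.norm_eq_one_of_pow_eq_one hw Nat.card_pos.ne']
      norm_num
    have h1 : ∀ g : G, ‖(S g).1.trace - (T g).1.trace‖ ^ 2 =
        ‖(S g).1.trace‖ ^ 2 + ‖(T g).1.trace‖ ^ 2 -
          2 * ((S g).1.trace * conj (T g).1.trace).re := by
      intro g
      rw [← Complex.normSq_eq_norm_sq, ← Complex.normSq_eq_norm_sq, ← Complex.normSq_eq_norm_sq,
        Complex.normSq_sub]
    have h2 : ∑ g : G, ‖(S g).1.trace - (T g).1.trace‖ ^ 2 = 2 * Fintype.card G := by
      rw [Finset.sum_congr rfl fun g _ => h1 g, Finset.sum_sub_distrib, Finset.sum_add_distrib,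
        sum_norm_sq S hS, sum_norm_sq T hT, ← Finset.mul_sum, ← Complex.re_sum, h]
      simp only [Complex.zero_re, mul_zero, sub_zero]
      ring
    have h3 : ∑ g : G, ‖(S g).1.trace - (T g).1.trace‖ ^ 2 ≤
        ∑ g : G, if (S g).1.trace ≠ (T g).1.trace then (16 : ℝ) else 0 := by
      refine Finset.sum_le_sum fun g _ => ?_
      split_ifs with hg
      · have h4 : ‖(S g).1.trace - (T g).1.trace‖ ≤ 4 :=
          (norm_sub_le _ _).trans (by linarith [hle S g, hle T g])
        nlinarith [norm_nonneg ((S g).1.trace - (T g).1.trace)]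
      · rw [not_not.mp hg, sub_self, norm_zero]
        norm_num
    rw [h2, ← Finset.sum_filter, Finset.sum_const, nsmul_eq_mul] at h3
    have h5 : Nat.card {g : G | (S g).1.trace ≠ (T g).1.trace} =
        (Finset.univ.filter fun g => (S g).1.trace ≠ (T g).1.trace).card := by
      rw [Nat.card_eq_fintype_card]
      exact Fintype.card_subtype _
    rw [h5, Nat.card_eq_fintype_card] at hlt
    have h6 : (8 * (Finset.univ.filter fun g => (S g).1.trace ≠ (T g).1.trace).card : ℝ) <
        Fintype.card G := by exact_mod_cast hlt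
    linarith

/-- The determinant from the traces. -/
theorem det_eq_of_trace_eq {S T : G →* GL (Fin 2) ℂ} (h : ∀ g, (S g).1.trace = (T g).1.trace)
    (g : G) : (S g).1.det = (T g).1.det := by
  have key : ∀ R : G →* GL (Fin 2) ℂ, 2 * (R g).1.det =
      (R g).1.trace ^ 2 - (R (g * g)).1.trace := by
    intro R
    rw [map_mul, Units.val_mul, Matrix.det_fin_two, Matrix.trace_fin_two, Matrix.trace_fin_two,
      Matrix.mul_apply, Matrix.mul_apply, Fin.sum_univ_two, Fin.sum_univ_two]
    ring
  have h1 := key S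
  rw [h g, h (g * g), ← key T] at h1
  exact mul_left_cancel₀ two_ne_zero h1

end Char

/-! ### Weight one forms -/

variable {N : ℕ} [NeZero N] {ε : DirichletCharacter ℂ N} {f : CuspForm (Gamma1 N) 1}
  {N' : ℕ} [NeZero N'] {ε' : DirichletCharacter ℂ N'} {f' : CuspForm (Gamma1 N') 1}

/-- **The mean value of `|a_p|²` is `1`** for every eigenform of weight one:
`∑_{p ∤ N} |a_p|² p^{-s} / log (1 / (s - 1)) → 1` for `s → 1+`. -/
theorem mean_square (hf : IsNormEigen ε f) :
    Tendsto (fun s : ℝ => (∑' p : ℕ, if p.Prime ∧ p ∉ N.primeFactors then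
      ‖qCoeff f p‖ ^ 2 * (p : ℝ) ^ (-s) else 0) / Real.log (1 / (s - 1))) (𝓝[>] 1) (𝓝 1) := by
  classical
  obtain ⟨r, h⟩ := exists_attached hf
  have := h.finite_range
  have := Fintype.ofFinite r.range
  have hirr : (Deformation.matrixRepresentation r.range.subtype).IsIrreducible :=
    isIrreducible_of_surjective r.rangeRestrict_surjective (fun σ => rfl) h.irr
  have h1 := tendsto_sum_class r.rangeRestrict r.rangeRestrict_surjective
    (DS.factors_rangeRestrict h.factors) (fun g => ‖(g : GL (Fin 2) ℂ).1.trace‖ ^ 2) (by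
      intro g c
      rw [Subgroup.coe_mul, Subgroup.coe_mul, Subgroup.coe_inv, trace_conj])
    (fun p => ‖qCoeff f p‖ ^ 2) N.primeFactors (by
      intro p hp hpB A hA
      have hpN := not_dvd_of_notMem hp hpB
      refine ⟨fun τ hτ => Subtype.ext (h.unr p hp hpN A hA τ hτ), fun σ hσ => ?_⟩
      rw [← h.trace p hp hpN A hA σ hσ]
      rfl)
  have h2 : (∑ g : r.range, ‖(g : GL (Fin 2) ℂ).1.trace‖ ^ 2) / (Fintype.card r.range : ℝ) = 1 := by
    have h3 := sum_norm_sq r.range.subtype hirr
    have h4 : (Fintype.card r.range : ℝ) ≠ 0 := by exact_mod_cast Fintype.card_ne_zero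
    rw [div_eq_one_iff_eq h4]
    exact h3
  rw [h2] at h1
  exact h1

/-- **Strong multiplicity one with densities** (weight one): if the primes `p` with
`a_p(f) ≠ a_p(f')` have a Dirichlet density `< 1/8`, then `a_p(f) = a_p(f')` and `ε(p) = ε'(p)` for
all primes `p` prime to the levels. -/
theorem eq_of_density (hf : IsNormEigen ε f) (hf' : IsNormEigen ε' f') {d : ℝ} (hd : d < 1 / 8)
    (h : HasDirichletDensity {p | ¬ p ∣ N ∧ ¬ p ∣ N' ∧ qCoeff f p ≠ qCoeff f' p} d) :
    ∀ p : ℕ, p.Prime → ¬ p ∣ N → ¬ p ∣ N' →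
      qCoeff f p = qCoeff f' p ∧ ε (p : ZMod N) = ε' (p : ZMod N') := by
  classical
  obtain ⟨r, hr⟩ := exists_attached hf
  obtain ⟨r', hr'⟩ := exists_attached hf'
  have hfac : GaloisFactorsThroughFiniteLevel (r.prod r') := by
    obtain ⟨L, hL, h1⟩ := hr.factors
    obtain ⟨L', hL', h2⟩ := hr'.factors
    exact ⟨L ⊔ L', inferInstance, fun σ hσ => Prod.ext (h1 σ fun x hx => hσ x
      ((le_sup_left : L ≤ L ⊔ L') hx)) (h2 σ fun x hx => hσ x ((le_sup_right : L' ≤ L ⊔ L') hx))⟩
  have := DS.finite_range_of_factors hfac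
  have := Fintype.ofFinite (r.prod r').range
  let ψ : Γℚ →* (r.prod r').range := (r.prod r').rangeRestrict
  have hψ : Function.Surjective ψ := (r.prod r').rangeRestrict_surjective
  let S : (r.prod r').range →* GL (Fin 2) ℂ := (MonoidHom.fst _ _).comp (r.prod r').range.subtype
  let S' : (r.prod r').range →* GL (Fin 2) ℂ := (MonoidHom.snd _ _).comp (r.prod r').range.subtype
  have hS : ∀ σ, S (ψ σ) = r σ := fun σ => rfl
  have hS' : ∀ σ, S' (ψ σ) = r' σ := fun σ => rfl
  have h1 : HasDirichletDensity {p | ¬ p ∣ N ∧ ¬ p ∣ N' ∧ qCoeff f p ≠ qCoeff f' p}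
      ((Nat.card {g : (r.prod r').range | (S g).1.trace ≠ (S' g).1.trace} : ℝ) /
        Nat.card (r.prod r').range) := by
    refine density_of_class ψ hψ (DS.factors_rangeRestrict hfac) _ ?_ _
      (N.primeFactors ∪ N'.primeFactors) ?_
    · intro g c hc
      rw [Set.mem_ofPred_eq] at hc ⊢
      rw [map_mul, map_mul, map_inv, map_mul, map_mul, map_inv, trace_conj, trace_conj]
      exact hc
    · intro p hp hpB A hA
      have hpN : ¬ p ∣ N := not_dvd_of_notMem hp fun h => hpB (Finset.mem_union_left _ h)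
      have hpN' : ¬ p ∣ N' := not_dvd_of_notMem hp fun h => hpB (Finset.mem_union_right _ h)
      refine ⟨fun τ hτ => Subtype.ext (Prod.ext (hr.unr p hp hpN A hA τ hτ)
        (hr'.unr p hp hpN' A hA τ hτ)), fun σ hσ => ?_⟩
      rw [Set.mem_ofPred_eq, Set.mem_ofPred_eq, hS, hS', hr.trace p hp hpN A hA σ hσ,
        hr'.trace p hp hpN' A hA σ hσ]
      exact ⟨fun h => h.2.2, fun h => ⟨hpN, hpN', h⟩⟩
  have h2 : (Nat.card {g : (r.prod r').range | (S g).1.trace ≠ (S' g).1.trace} : ℝ) /
        Nat.card (r.prod r').range = d := tendsto_nhds_unique h1 h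
  have hcard : (0 : ℝ) < Nat.card (r.prod r').range := by exact_mod_cast Nat.card_pos
  have hlt : 8 * Nat.card {g : (r.prod r').range | (S g).1.trace ≠ (S' g).1.trace} <
      Nat.card (r.prod r').range := by
    rw [← h2, div_lt_iff₀ hcard] at hd
    have h3 : (8 * Nat.card {g : (r.prod r').range | (S g).1.trace ≠ (S' g).1.trace} : ℝ) <
      Nat.card (r.prod r').range := by linarith
    exact_mod_cast h3
  have htr := trace_eq_of_card_lt S S' (isIrreducible_of_surjective hψ hS hr.irr)
    (isIrreducible_of_surjective hψ hS' hr'.irr) hlt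
  intro p hp hpN hpN'
  obtain ⟨A, hA, σ, hσ⟩ := Frob.exists_frobenius p hp
  refine ⟨?_, ?_⟩
  · rw [← hr.trace p hp hpN A hA σ hσ, ← hr'.trace p hp hpN' A hA σ hσ]
    exact htr (ψ σ)
  · rw [← hr.det p hp hpN A hA σ hσ, ← hr'.det p hp hpN' A hA σ hσ]
    exact det_eq_of_trace_eq htr (ψ σ)

/-- **Strong multiplicity one in weight one** (away from the levels). -/
theorem strong_multiplicity_one (hf : IsNormEigen ε f) (hf' : IsNormEigen ε' f')
    (h : {p : ℕ | p.Prime ∧ ¬ p ∣ N ∧ ¬ p ∣ N' ∧ qCoeff f p ≠ qCoeff f' p}.Finite) :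
    ∀ p : ℕ, p.Prime → ¬ p ∣ N → ¬ p ∣ N' →
      qCoeff f p = qCoeff f' p ∧ ε (p : ZMod N) = ε' (p : ZMod N') := by
  have h0 : HasDirichletDensity (∅ : Set ℕ) 0 := by
    have h2 : ∀ s, DS.primeSum (∅ : Set ℕ) s = 0 := by
      intro s
      simp [DS.primeSum]
    unfold HasDirichletDensity
    simp only [h2, zero_div]
    exact tendsto_const_nhds
  refine eq_of_density hf hf' (d := 0) (by norm_num) (h0.congr h fun p hp hpB =>
    ⟨fun h => absurd h (Set.notMem_empty p), fun h => absurd ⟨hp, h⟩ hpB⟩)

end Fermat.Agent.Cor.WtOne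

end
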