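import Fermat.Agent.Corollaries.WtOne.Basis
import Fermat.Agent.Corollaries.WtOne.Mult

/-!
# The coefficients at primes of an arbitrary cusp form of weight one

* `exists_class_function`: there is one finite quotient `G` of `Gal(ℚ̄/ℚ)`, unramified outside `N`,
  such that for **every** `f ∈ S₁(Γ₁(N))` (not only eigenforms) the coefficient `a_p(f)`, `p ∤ N`, is
  the value at the Frobenius class of a class function on `G` of mean value `0`;
* `density_form`: the primes with `a_p(f) ∈ T` have a rational Dirichlet density, for all `f`, `T`;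
* `finite_values_form`: the `a_p(f)` take finitely many values;
* `tendsto_mean_re`, `tendsto_mean_im`: the mean value of the `a_p(f)` is `0`;
* `lacunary_uniform`: the `n` such that `a_n(f) ≠ 0` for some `f ∈ S₁(Γ₁(N))` have natural density
  `0`.
-/

set_option autoImplicit false

noncomputable section

open CongruenceSubgroup UpperHalfPlane Function Filter Topology
open scoped MatrixGroups ModularForm ComplexConjugate

namespace Fermat.Agent.Cor.WtOne

open Fermat.Agent.X1 Fermat.Agent.HeckePar ModularFormClass Fermat.Agent.LT.End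

local notation "Γℚ" => (AlgebraicClosure ℚ ≃ₐ[ℚ] AlgebraicClosure ℚ)

/-- The trace of an irreducible odd representation has mean value `0`. -/
theorem sum_trace_eq_zero {G : Type} [Group G] [Fintype G] (S : G →* GL (Fin 2) ℂ)
    (hS : (Deformation.matrixRepresentation S).IsIrreducible) {g₀ : G}
    (h₀ : (S g₀).1.det = -1) : ∑ g : G, (S g).1.trace = 0 := by
  classical
  set P : Matrix (Fin 2) (Fin 2) ℂ := ∑ g : G, (S g).1 with hP
  have h1 : ∀ h : G, (S h).1 * P = P := by
    intro h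
    rw [hP, Finset.mul_sum]
    conv_rhs => rw [← Equiv.sum_comp (Equiv.mulLeft h)]
    refine Finset.sum_congr rfl fun g _ => ?_
    rw [Equiv.coe_mulLeft, map_mul, Units.val_mul]
  have h2 : P = 0 := by
    let W : Subrepresentation (Deformation.matrixRepresentation S) :=
      ⟨{ carrier := {v | ∀ h : G, (S h).1.mulVec v = v}
         add_mem' := fun {a b} ha hb h => by rw [Matrix.mulVec_add, ha h, hb h]
         zero_mem' := fun h => Matrix.mulVec_zero _
         smul_mem' := fun c a ha h => by rw [Matrix.mulVec_smul, ha h] }, fun g v hv => by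
          have h3 : ∀ h : G, (S h).1.mulVec v = v := hv
          rw [Deformation.matrixRepresentation_apply]
          show (Matrix.mulVec (S g).1 v) ∈ _
          rw [h3 g]
          exact hv⟩
    have hmem : ∀ v, v ∈ W.toSubmodule ↔ ∀ h : G, (S h).1.mulVec v = v := fun v => Iff.rfl
    have hcol : ∀ v, P.mulVec v ∈ W.toSubmodule := by
      intro v
      rw [hmem]
      intro h
      rw [Matrix.mulVec_mulVec, h1 h]
    rcases hS.eq_bot_or_eq_top W with h3 | h3
    · have h4 : ∀ v, P.mulVec v = 0 := by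
        intro v
        have h5 := hcol v
        rw [h3] at h5
        exact h5
      ext i j
      have h5 := congrFun (h4 (Pi.single j 1)) i
      rw [Matrix.mulVec_single_one] at h5
      exact h5
    · exfalso
      have h4 : (S g₀).1 = 1 := by
        ext i j
        have h5 : (Pi.single j 1 : Fin 2 → ℂ) ∈ W.toSubmodule := by
          rw [h3]
          trivial
        have h6 := congrFun ((hmem _).mp h5 g₀) i
        rw [Matrix.mulVec_single_one] at h6
        rw [Matrix.one_apply, ← Pi.single_apply]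
        rw [Pi.single_apply] at h6 ⊢
        exact h6
      rw [h4, Matrix.det_one] at h₀
      norm_num at h₀
  rw [← Matrix.trace_sum, ← hP, h2, Matrix.trace_zero]

/-- **The coefficients at primes of all cusp forms of weight one are class functions of Frobenius**
in one finite Galois group, of mean value `0`. -/
theorem exists_class_function (N : ℕ) [NeZero N] :
    ∃ (G : Type) (_ : Group G) (_ : Fintype G) (ψ : Γℚ →* G), Function.Surjective ψ ∧
      GaloisFactorsThroughFiniteLevel ψ ∧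
      (∀ p : ℕ, p.Prime → ¬ p ∣ N → ∀ A : ValuationSubring (AlgebraicClosure ℚ),
        A.LiesOverPrime p → ∀ τ ∈ A.inertiaSubgroupIn ℚ, ψ τ = 1) ∧
      ∀ f : CuspForm (Gamma1 N) 1, ∃ φ : G → ℂ, (∀ g c : G, φ (g * c * g⁻¹) = φ c) ∧
        ∑ g : G, φ g = 0 ∧
        ∀ p : ℕ, p.Prime → ¬ p ∣ N → ∀ A : ValuationSubring (AlgebraicClosure ℚ),
          A.LiesOverPrime p → ∀ σ : Γℚ, A.IsFrobeniusAt σ p → qCoeff f p = φ (ψ σ) := by
  classical
  have hfin : Finite {x // DS.IsSys N x} := Set.finite_coe_iff.mpr (DS.finite_systems N)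
  choose F hF hFp using fun x : {x // DS.IsSys N x} => x.2
  have hFe : ∀ x, IsNormEigen x.1.1 (F x) := fun x => ⟨(hF x).one, (hF x).hecke⟩
  choose r hr using fun x => exists_attached (hFe x)
  let ψ : Γℚ →* ({x // DS.IsSys N x} → GL (Fin 2) ℂ) := MonoidHom.pi r
  have hfac : GaloisFactorsThroughFiniteLevel ψ := by
    choose L hL hLr using fun x => (hr x).factors
    refine ⟨⨆ x, L x, inferInstance, fun σ hσ => ?_⟩
    funext x
    exact hLr x σ fun y hy => hσ y (le_iSup L x hy)
  have hfr : Finite ψ.range := DS.finite_range_of_factors hfac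
  refine ⟨ψ.range, inferInstance, Fintype.ofFinite _, ψ.rangeRestrict, ψ.rangeRestrict_surjective,
    DS.factors_rangeRestrict hfac, fun p hp hpN A hA τ hτ => Subtype.ext (funext fun x =>
      (hr x).unr p hp hpN A hA τ hτ), fun f => ?_⟩
  have hft : Fintype ψ.range := Fintype.ofFinite _
  -- the property to be proved, for a form `f`
  set Q : CuspForm (Gamma1 N) 1 → Prop := fun f => ∃ φ : ψ.range → ℂ,
    (∀ g c : ψ.range, φ (g * c * g⁻¹) = φ c) ∧ ∑ g : ψ.range, φ g = 0 ∧
        ∀ p : ℕ, p.Prime → ¬ p ∣ N → ∀ A : ValuationSubring (AlgebraicClosure ℚ),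
          A.LiesOverPrime p → ∀ σ : Γℚ, A.IsFrobeniusAt σ p →
            qCoeff f p = φ (ψ.rangeRestrict σ) with hQ
  have hQ0 : Q 0 := ⟨fun _ => 0, fun _ _ => rfl, Finset.sum_const_zero, fun p _ _ _ _ _ _ =>
    (qLin N (Gamma1 N) 1 p).map_zero⟩
  have hQadd : ∀ f g, Q f → Q g → Q (f + g) := by
    rintro f g ⟨φ, h1, h2, h3⟩ ⟨φ', h1', h2', h3'⟩
    refine ⟨fun x => φ x + φ' x, fun g c => ?_, ?_, fun p hp hpN A hA σ hσ => ?_⟩
    · show φ _ + φ' _ = _
      rw [h1, h1']
    · rw [Finset.sum_add_distrib, h2, h2', add_zero]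
    · rw [qCoeff_cusp_add N (Gamma1 N) 1 f g p, h3 p hp hpN A hA σ hσ, h3' p hp hpN A hA σ hσ]
  have hQe : ∀ (t : ℕ → ℂ) (χ : (ZMod N)ˣ → ℂ) (g : CuspForm (Gamma1 N) 1), g ≠ 0 →
      IsEig t χ g → Q g := by
    intro t χ g hg0 hg
    obtain ⟨ε, w, hw, hc⟩ := exists_coeff_eq hg0 hg
    have h1 : DS.IsSys N (ε, fun p => if p.Prime ∧ ¬ p ∣ N then qCoeff w p else 0) :=
      ⟨w, ⟨hw.one, hw.rel⟩, fun p => rfl⟩
    set x : {x // DS.IsSys N x} := ⟨_, h1⟩ with hx
    have h2 : ∀ p : ℕ, p.Prime → ¬ p ∣ N → qCoeff (F x) p = qCoeff w p := by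
      intro p hp hpN
      have h3 := hFp x p
      rw [if_pos ⟨hp, hpN⟩] at h3
      rw [← h3]
      show (if p.Prime ∧ ¬ p ∣ N then qCoeff w p else 0) = qCoeff w p
      rw [if_pos ⟨hp, hpN⟩]
    refine ⟨fun y => qCoeff g 1 * (y.1 x).1.trace, fun y c => ?_, ?_,
      fun p hp hpN A hA σ hσ => ?_⟩
    · show qCoeff g 1 * ((y * c * y⁻¹ : ψ.range).1 x).1.trace = qCoeff g 1 * (c.1 x).1.trace
      rw [Subgroup.coe_mul, Subgroup.coe_mul, Subgroup.coe_inv, Pi.mul_apply, Pi.mul_apply,
        Pi.inv_apply, trace_conj]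
    · rw [← Finset.mul_sum]
      let S : ψ.range →* GL (Fin 2) ℂ := (Pi.evalMonoidHom _ x).comp ψ.range.subtype
      have h4 : (Deformation.matrixRepresentation S).IsIrreducible :=
        isIrreducible_of_surjective ψ.rangeRestrict_surjective (r := r x) (fun σ => rfl)
          (hr x).irr
      have h5 : (S (ψ.rangeRestrict complexConjugation)).1.det = -1 := (hr x).det_cc (hFe x)
      have h6 : ∑ y : ψ.range, (S y).1.trace = 0 := sum_trace_eq_zero S h4 h5
      have h7 : ∑ y : ψ.range, (y.1 x).1.trace = 0 := h6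
      rw [h7, mul_zero]
    · rw [hc p hp.ne_zero ((Nat.Prime.coprime_iff_not_dvd hp).mpr hpN), ← h2 p hp hpN,
        ← (hr x).trace p hp hpN A hA σ hσ]
      rfl
  obtain ⟨s, g, hg, hf⟩ := Pet.exists_sum_eigenforms (N := N) (Gamma1 N) f
  have hQf : Q f := by
    rw [hf]
    clear hf
    induction s using Finset.induction_on with
    | empty => rw [Finset.sum_empty]; exact hQ0
    | insert χ s hχ ih =>
      rw [Finset.sum_insert hχ]
      refine hQadd _ _ ?_ ih
      by_cases h0 : g χ = 0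
      · rw [h0]; exact hQ0
      · refine hQe (fun p => if h : p.Prime ∧ ¬ p ∣ N then χ (.inl ⟨p, h⟩) else 0)
          (fun u => χ (.inr u)) (g χ) h0 ⟨fun p hp hpN => ?_, fun u => hg χ (.inr u)⟩
        rw [dif_pos ⟨hp.out, hpN⟩]
        exact hg χ (.inl ⟨p, hp.out, hpN⟩)
  obtain ⟨φ, h1, h2, h3⟩ := hQf
  exact ⟨φ, h1, by convert h2, h3⟩

/-- **The primes with `a_p(f) ∈ T` have a rational Dirichlet density**, for every cusp form `f` of
weight one on `Γ₁(N)`. -/
theorem density_form {N : ℕ} [NeZero N] (f : CuspForm (Gamma1 N) 1) (T : Set ℂ) :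
    ∃ d : ℚ, 0 ≤ d ∧ HasDirichletDensity {p | ¬ p ∣ N ∧ qCoeff f p ∈ T} d := by
  obtain ⟨G, _, _, ψ, hsurj, hfac, hunr, h⟩ := exists_class_function N
  obtain ⟨φ, h1, -, h3⟩ := h f
  have h4 := density_of_class ψ hsurj hfac {g | φ g ∈ T}
    (fun g c hc => by
      show φ _ ∈ T
      rw [h1]
      exact hc)
    {p | ¬ p ∣ N ∧ qCoeff f p ∈ T} N.primeFactors (fun p hp hpB A hA => by
      have hpN := not_dvd_of_notMem hp hpB
      refine ⟨hunr p hp hpN A hA, fun σ hσ => ?_⟩
      rw [Set.mem_ofPred_eq, Set.mem_ofPred_eq, h3 p hp hpN A hA σ hσ]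
      exact ⟨fun h => h.2, fun h => ⟨hpN, h⟩⟩)
  refine ⟨(Nat.card {g | φ g ∈ T} : ℚ) / Nat.card G, by positivity, ?_⟩
  push_cast
  exact h4

/-- The coefficients `a_p(f)`, `p ∤ N`, of a cusp form of weight one take finitely many values. -/
theorem finite_values_form {N : ℕ} [NeZero N] (f : CuspForm (Gamma1 N) 1) :
    {t : ℂ | ∃ p : ℕ, p.Prime ∧ ¬ p ∣ N ∧ qCoeff f p = t}.Finite := by
  obtain ⟨G, _, _, ψ, hsurj, hfac, hunr, h⟩ := exists_class_function N
  obtain ⟨φ, h1, -, h3⟩ := h f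
  refine (Set.finite_range φ).subset ?_
  rintro t ⟨p, hp, hpN, rfl⟩
  obtain ⟨A, hA, σ, hσ⟩ := Frob.exists_frobenius p hp
  exact ⟨ψ σ, (h3 p hp hpN A hA σ hσ).symm⟩

/-- The mean value of the real parts of the `a_p(f)` is `0`. -/
theorem tendsto_mean_re {N : ℕ} [NeZero N] (f : CuspForm (Gamma1 N) 1) :
    Tendsto (fun s : ℝ => (∑' p : ℕ, if p.Prime ∧ p ∉ N.primeFactors then
      (qCoeff f p).re * (p : ℝ) ^ (-s) else 0) / Real.log (1 / (s - 1))) (𝓝[>] 1) (𝓝 0) := by
  obtain ⟨G, _, _, ψ, hsurj, hfac, hunr, h⟩ := exists_class_function N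
  obtain ⟨φ, h1, h2, h3⟩ := h f
  have h4 := tendsto_sum_class ψ hsurj hfac (fun g => (φ g).re) (fun g c => by
      show (φ _).re = _
      rw [h1])
    (fun p => (qCoeff f p).re) N.primeFactors (fun p hp hpB A hA => by
      have hpN := not_dvd_of_notMem hp hpB
      exact ⟨hunr p hp hpN A hA, fun σ hσ => by rw [h3 p hp hpN A hA σ hσ]⟩)
  rw [← Complex.re_sum, h2, Complex.zero_re, zero_div] at h4
  exact h4

/-- The mean value of the imaginary parts of the `a_p(f)` is `0`. -/
theorem tendsto_mean_im {N : ℕ} [NeZero N] (f : CuspForm (Gamma1 N) 1) :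
    Tendsto (fun s : ℝ => (∑' p : ℕ, if p.Prime ∧ p ∉ N.primeFactors then
      (qCoeff f p).im * (p : ℝ) ^ (-s) else 0) / Real.log (1 / (s - 1))) (𝓝[>] 1) (𝓝 0) := by
  obtain ⟨G, _, _, ψ, hsurj, hfac, hunr, h⟩ := exists_class_function N
  obtain ⟨φ, h1, h2, h3⟩ := h f
  have h4 := tendsto_sum_class ψ hsurj hfac (fun g => (φ g).im) (fun g c => by
      show (φ _).im = _
      rw [h1])
    (fun p => (qCoeff f p).im) N.primeFactors (fun p hp hpB A hA => by
      have hpN := not_dvd_of_notMem hp hpB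
      exact ⟨hunr p hp hpN A hA, fun σ hσ => by rw [h3 p hp hpN A hA σ hσ]⟩)
  rw [← Complex.im_sum, h2, Complex.zero_im, zero_div] at h4
  exact h4

/-- If a prime of `zeroPrimes N` divides `n` exactly once then `a_n(f) = 0` for **all** cusp forms
of weight one on `Γ₁(N)`. -/
theorem qCoeff_eq_zero_of_exact {N : ℕ} [NeZero N] {p n : ℕ} (hp : p.Prime)
    (h : p ∈ zeroPrimes N) (hpn : Div.Exact p n) (f : CuspForm (Gamma1 N) 1) : qCoeff f n = 0 := by
  have hpF : Fact p.Prime := ⟨hp⟩
  obtain ⟨⟨m, rfl⟩, h2⟩ := hpn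
  have h3 : ¬ p ∣ m := fun h4 => h2 (by rw [pow_two]; exact Nat.mul_dvd_mul_left p h4)
  have h4 := qCoeff_tCusp (Gamma1 N) 1 p h.1 f m
  rw [if_neg h3, add_zero, mul_comm m p, tCusp_eq_zero h] at h4
  rw [← h4]
  exact (qLin N (Gamma1 N) 1 m).map_zero

open scoped Classical in
/-- **Uniform lacunarity**: for almost all `n` (natural density `1`), `a_n(f) = 0` for **all** cusp
forms `f` of weight one on `Γ₁(N)`. -/
theorem lacunary_uniform (N : ℕ) [NeZero N] :
    Tendsto (fun x : ℕ => (((Finset.range x).filter fun n =>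
      ∃ f : CuspForm (Gamma1 N) 1, qCoeff f n ≠ 0).card : ℝ) / x) atTop (𝓝 0) := by
  obtain ⟨d, hd, h⟩ := exists_density_zeroPrimes N
  have h1 := Div.tendsto_zero (fun p hp => hp.1)
    (not_summable_of_density h (by exact_mod_cast hd.ne'))
  refine squeeze_zero (fun x => by positivity) (fun x => ?_) h1
  refine div_le_div_of_nonneg_right ?_ (Nat.cast_nonneg x)
  refine Nat.cast_le.mpr (Finset.card_le_card fun n hn => ?_)
  rw [Finset.mem_filter] at hn ⊢
  refine ⟨hn.1, fun p hp hpn => ?_⟩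
  obtain ⟨f, hf⟩ := hn.2
  exact hf (qCoeff_eq_zero_of_exact hp.1 hp.2 hpn f)

end Fermat.Agent.Cor.WtOne

end
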