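import Fermat.Agent.Corollaries.WtOne.Density
import Fermat.Agent.Corollaries.Div.Sieve
import Fermat.Agent.DS.Systems

/-!
# Forms of weight one are lacunary (Serre)

* `tendsto_not_many` (Mathlib only, on top of the sieve of `Corollaries.Div.Sieve`): if
  `∑_{p ∈ P} 1 / p = ∞`, then for every `k` almost every integer is divisible exactly once by at
  least `k` primes of `P`;
* `not_summable_of_density`: a set of primes of non-zero Dirichlet density has `∑ 1 / p = ∞`;
* `exists_density_nilpotent`: the operator `T_p` on `S₁(Γ₁(N))` is nilpotent for a set of primes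
  of positive Dirichlet density (those whose Frobenius has trace `0` in the representations of all
  eigenforms; complex conjugation is such an element);
* `lacunary`: for **every** cusp form `f = ∑ a_n q^n` of weight one on `Γ₁(N)` the set of the `n`
  with `a_n ≠ 0` has natural density `0`.
-/

set_option autoImplicit false

noncomputable section

open CongruenceSubgroup UpperHalfPlane Function Filter Topology
open scoped MatrixGroups ModularForm

namespace Fermat.Agent.Cor.WtOne

open Fermat.Agent.X1 Fermat.Agent.HeckePar ModularFormClass Fermat.Agent.LT.End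
open Fermat.Agent.Cor.Div (Exact Bad)

local notation "Γℚ" => (AlgebraicClosure ℚ ≃ₐ[ℚ] AlgebraicClosure ℚ)

/-! ### Integers with few exact divisors in a set of primes -/

open scoped Classical in
theorem exists_count_bad_le {S : Finset ℕ} (hS : ∀ p ∈ S, p.Prime) : ∃ c : ℝ, ∀ x : ℕ,
    (((Finset.range x).filter (Bad S)).card : ℝ) ≤
      x * (∏ p ∈ S, (1 - ((p : ℝ) - 1) / (p : ℝ) ^ 2)) + c := by
  set M : ℕ := ∏ p ∈ S, p ^ 2 with hMdef
  have hM : 0 < M := Finset.prod_pos fun p hp => pow_pos (hS p hp).pos 2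
  have hM' : (0 : ℝ) < M := by exact_mod_cast hM
  set c : ℝ := (((Finset.range M).filter (Bad S)).card : ℝ) with hc
  have hcM : c = M * ∏ p ∈ S, (1 - ((p : ℝ) - 1) / (p : ℝ) ^ 2) := by
    rw [hc, hMdef, Div.card_bad hS]
    push_cast
    rfl
  refine ⟨c, fun x => ?_⟩
  have h2 := Div.card_periodic_le (A := Bad S) hM
    (fun n => Div.bad_mod fun p hp => Finset.dvd_prod_of_mem _ hp) x
  have h4 : (((Finset.range x).filter (Bad S)).card : ℝ) ≤ ((x / M + 1 : ℕ) : ℝ) * c := by
    rw [hc]
    exact_mod_cast h2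
  have h5 : ((x / M + 1 : ℕ) : ℝ) * c ≤ ((x : ℝ) / M + 1) * c := by
    refine mul_le_mul_of_nonneg_right ?_ (Nat.cast_nonneg _)
    push_cast
    have := Nat.cast_div_le (α := ℝ) (m := x) (n := M)
    linarith
  refine h4.trans (h5.trans (le_of_eq ?_))
  rw [add_mul, one_mul]
  congr 1
  rw [hcM]
  field_simp

/-- At least `k` primes of `P` divide `n` exactly once. -/
def Many (k : ℕ) (P : Set ℕ) (n : ℕ) : Prop :=
  ∃ T : Finset ℕ, T.card = k ∧ ∀ p ∈ T, p ∈ P ∧ Exact p n

theorem not_summable_diff {P : Set ℕ} (h : ¬ Summable fun p : P => (1 : ℝ) / (p : ℕ))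
    (S : Finset ℕ) : ¬ Summable fun p : (P \ (S : Set ℕ) : Set ℕ) => (1 : ℝ) / (p : ℕ) := by
  intro h1
  apply h
  have h2 : Summable ((P \ (S : Set ℕ)).indicator fun p : ℕ => (1 : ℝ) / p) :=
    summable_subtype_iff_indicator.mp h1
  have h3 : Summable ((P ∩ (S : Set ℕ)).indicator fun p : ℕ => (1 : ℝ) / p) :=
    summable_of_hasFiniteSupport ((Finset.finite_toSet S).subset fun x hx =>
      (Set.support_indicator_subset hx).2)
  refine (summable_subtype_iff_indicator (f := fun p : ℕ => (1 : ℝ) / p)).mpr ?_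
  refine (h2.add h3).congr fun p => ?_
  by_cases hp : p ∈ P
  · by_cases hS : p ∈ (S : Set ℕ)
    · have h4 : p ∈ P ∩ (S : Set ℕ) := ⟨hp, hS⟩
      rw [Set.indicator_of_notMem (fun h => h.2 hS), Set.indicator_of_mem h4,
        Set.indicator_of_mem hp, zero_add]
    · have h4 : p ∈ P \ (S : Set ℕ) := ⟨hp, hS⟩
      rw [Set.indicator_of_mem h4, Set.indicator_of_notMem (fun h => hS h.2),
        Set.indicator_of_mem hp, add_zero]
  · rw [Set.indicator_of_notMem (fun h => hp h.1), Set.indicator_of_notMem (fun h => hp h.1),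
      Set.indicator_of_notMem hp, add_zero]

open scoped Classical in
/-- **Almost every integer has at least `k` exact divisors in `P`**, if `∑_{p ∈ P} 1 / p = ∞`. -/
theorem tendsto_not_many (k : ℕ) : ∀ {P : Set ℕ}, (∀ p ∈ P, p.Prime) →
    (¬ Summable fun p : P => (1 : ℝ) / (p : ℕ)) →
    Tendsto (fun x : ℕ => (((Finset.range x).filter fun n => ¬ Many k P n).card : ℝ) / x)
      atTop (𝓝 0) := by
  induction k with
  | zero =>
    intro P hP h
    have h1 : ∀ n, Many 0 P n := fun n =>
      ⟨∅, rfl, fun p hp => absurd hp (Finset.notMem_empty p)⟩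
    have h2 : ∀ x : ℕ, (Finset.range x).filter (fun n => ¬ Many 0 P n) = ∅ := fun x =>
      Finset.filter_false_of_mem fun n _ h => h (h1 n)
    simp only [h2, Finset.card_empty, Nat.cast_zero, zero_div]
    exact tendsto_const_nhds
  | succ k ih =>
    intro P hP h
    rw [tendsto_order]
    refine ⟨fun a ha => Eventually.of_forall fun x => ha.trans_le (by positivity), fun a ha => ?_⟩
    have ha3 : 0 < a / 3 := by positivity
    obtain ⟨S, hS, hlt⟩ := Div.exists_prod_lt hP h ha3
    have hSp : ∀ p ∈ S, p.Prime := fun p hp => hP p (hS p hp)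
    obtain ⟨c, hc⟩ := exists_count_bad_le hSp
    have h1 := ih (P := P \ (S : Set ℕ)) (fun p hp => hP p hp.1) (not_summable_diff h S)
    have h2 : Tendsto (fun x : ℕ => c / (x : ℝ)) atTop (𝓝 0) :=
      tendsto_const_div_atTop_nhds_zero_nat c
    filter_upwards [h1.eventually_lt_const ha3, h2.eventually_lt_const ha3,
      eventually_gt_atTop 0] with x hx1 hx2 hx0
    have hx0' : (0 : ℝ) < x := by exact_mod_cast hx0
    have h3 : ((Finset.range x).filter fun n => ¬ Many (k + 1) P n).card ≤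
        ((Finset.range x).filter (Bad S)).card +
          ((Finset.range x).filter fun n => ¬ Many k (P \ (S : Set ℕ)) n).card := by
      refine (Finset.card_le_card ?_).trans (Finset.card_union_le _ _)
      intro n hn
      rw [Finset.mem_filter] at hn
      rw [Finset.mem_union, Finset.mem_filter, Finset.mem_filter]
      by_cases hB : Bad S n
      · exact Or.inl ⟨hn.1, hB⟩
      · refine Or.inr ⟨hn.1, fun hM => hn.2 ?_⟩
        obtain ⟨T, hT, hT'⟩ := hM
        have hB' : ∃ p ∈ S, Exact p n := by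
          by_contra hcon
          push Not at hcon
          exact hB hcon
        obtain ⟨p, hp, hpn⟩ := hB'
        refine ⟨insert p T, ?_, ?_⟩
        · rw [Finset.card_insert_of_notMem, hT]
          intro hpT
          exact (hT' p hpT).1.2 hp
        · intro q hq
          rcases Finset.mem_insert.mp hq with rfl | hq
          · exact ⟨hS q hp, hpn⟩
          · exact ⟨(hT' q hq).1.1, (hT' q hq).2⟩
    have h3' : (((Finset.range x).filter fun n => ¬ Many (k + 1) P n).card : ℝ) ≤
        (((Finset.range x).filter (Bad S)).card : ℝ) +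
          (((Finset.range x).filter fun n => ¬ Many k (P \ (S : Set ℕ)) n).card : ℝ) := by
      exact_mod_cast h3
    rw [div_lt_iff₀ hx0'] at hx1 hx2 ⊢
    have h4 := hc x
    have h5 : (x : ℝ) * (∏ p ∈ S, (1 - ((p : ℝ) - 1) / (p : ℝ) ^ 2)) < x * (a / 3) :=
      mul_lt_mul_of_pos_left hlt hx0'
    linarith

/-- **A set of primes of non-zero Dirichlet density has a divergent sum of reciprocals.** -/
theorem not_summable_of_density {S : Set ℕ} {d : ℝ} (h : HasDirichletDensity S d) (hd : d ≠ 0) :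
    ¬ Summable fun p : {p : ℕ | p.Prime ∧ p ∈ S} => (1 : ℝ) / (p : ℕ) := by
  intro h1
  have h2 : Summable ({p : ℕ | p.Prime ∧ p ∈ S}.indicator fun p : ℕ => (1 : ℝ) / p) :=
    summable_subtype_iff_indicator.mp h1
  set C : ℝ := ∑' p : ℕ, {p : ℕ | p.Prime ∧ p ∈ S}.indicator (fun p : ℕ => (1 : ℝ) / p) p with hC
  have h3 : ∀ s : ℝ, 1 < s → DS.primeSum S s ≤ C := by
    intro s hs
    rw [primeSum_eq_tsum]
    refine (summable_indicator S hs).tsum_le_tsum (fun p => ?_) h2
    by_cases hp : p ∈ {p : ℕ | p.Prime ∧ p ∈ S}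
    · rw [Set.indicator_of_mem hp, Set.indicator_of_mem hp]
      have hp1 : (1 : ℝ) ≤ p := by exact_mod_cast hp.1.one_lt.le
      rw [one_div, ← Real.rpow_neg_one]
      exact Real.rpow_le_rpow_of_exponent_le hp1 (by linarith)
    · rw [Set.indicator_of_notMem hp, Set.indicator_of_notMem hp]
  have h4 : ∀ s : ℝ, 0 ≤ DS.primeSum S s := by
    intro s
    rw [primeSum_eq_tsum]
    refine tsum_nonneg fun p => Set.indicator_nonneg (fun p _ => ?_) p
    positivity
  have h5 : Tendsto (fun s : ℝ => DS.primeSum S s / Real.log (1 / (s - 1))) (𝓝[>] 1) (𝓝 0) := by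
    have h6 : Tendsto (fun s : ℝ => C / Real.log (1 / (s - 1))) (𝓝[>] 1) (𝓝 0) :=
      tendsto_const_nhds.div_atTop DS.tendsto_log_atTop
    refine squeeze_zero' ?_ ?_ h6
    · filter_upwards [DS.tendsto_log_atTop.eventually_gt_atTop 0] with s hl
      exact div_nonneg (h4 s) hl.le
    · filter_upwards [self_mem_nhdsWithin, DS.tendsto_log_atTop.eventually_gt_atTop 0] with s hs hl
      exact div_le_div_of_nonneg_right (h3 s hs) hl.le
  exact hd (tendsto_nhds_unique h h5)

open scoped Classical in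
/-- **Eigenforms of weight one are lacunary**: `a_n ≠ 0` for a set of `n` of density `0`. -/
theorem lacunary_eigen {N : ℕ} [NeZero N] {ε : DirichletCharacter ℂ N} {f : CuspForm (Gamma1 N) 1}
    (hf : IsNormEigen ε f) :
    Tendsto (fun x : ℕ => (((Finset.range x).filter fun n => qCoeff f n ≠ 0).card : ℝ) / x)
      atTop (𝓝 0) := by
  obtain ⟨d, hd, h⟩ := density_zero_pos hf
  have h1 := tendsto_not_many 1 (fun p hp => hp.1)
    (not_summable_of_density h (by exact_mod_cast hd.ne'))
  refine squeeze_zero (fun x => by positivity) (fun x => ?_) h1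
  refine div_le_div_of_nonneg_right ?_ (Nat.cast_nonneg x)
  refine Nat.cast_le.mpr (Finset.card_le_card fun n hn => ?_)
  rw [Finset.mem_filter] at hn ⊢
  refine ⟨hn.1, ?_⟩
  rintro ⟨T, hT, hT'⟩
  obtain ⟨p, rfl⟩ := Finset.card_eq_one.mp hT
  obtain ⟨⟨hp, hpN, hp0, -⟩, ⟨m, rfl⟩, h2⟩ := hT' p (Finset.mem_singleton_self p)
  have h3 : ¬ p ∣ m := fun h4 => h2 (by rw [pow_two]; exact Nat.mul_dvd_mul_left p h4)
  have h4 := hf.rel p hp hpN m
  rw [if_neg h3, mul_zero, add_zero, hp0, zero_mul] at h4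
  exact hn.2 h4

/-! ### The primes with nilpotent `T_p` -/

variable (N : ℕ) [NeZero N]

/-- The primes `p ∤ N` with `a_p = 0` for all eigenforms of weight one and level `N`. -/
def zeroPrimes : Set ℕ := {p | ¬ p ∣ N ∧ ∀ (ε : DirichletCharacter ℂ N) (f : CuspForm (Gamma1 N) 1),
  IsNormEigen ε f → qCoeff f p = 0}

/-- **All eigenforms of weight one and level `N` have `a_p = 0` for a common set of primes of
positive density.** -/
theorem exists_density_zeroPrimes : ∃ d : ℚ, 0 < d ∧ HasDirichletDensity (zeroPrimes N) d := by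
  classical
  have hfin : Finite {x // DS.IsSys N x} := Set.finite_coe_iff.mpr (DS.finite_systems N)
  choose F hF hFp using fun x : {x // DS.IsSys N x} => x.2
  have hFe : ∀ x, IsNormEigen x.1.1 (F x) := fun x => ⟨(hF x).one, (hF x).hecke⟩
  choose r hr using fun x => exists_attached (hFe x)
  let ψ : Γℚ →* ({x // DS.IsSys N x} → GL (Fin 2) ℂ) := MonoidHom.pi r
  have hψ : ∀ σ x, ψ σ x = r x σ := fun σ x => rfl
  have hfac : GaloisFactorsThroughFiniteLevel ψ := by
    choose L hL hLr using fun x => (hr x).factors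
    refine ⟨⨆ x, L x, inferInstance, fun σ hσ => ?_⟩
    funext x
    exact hLr x σ fun y hy => hσ y (le_iSup L x hy)
  have hfr : Finite ψ.range := DS.finite_range_of_factors hfac
  have hkey : ∀ p : ℕ, p.Prime → ¬ p ∣ N → (p ∈ zeroPrimes N ↔ ∀ x, qCoeff (F x) p = 0) := by
    intro p hp hpN
    constructor
    · intro h x
      exact h.2 _ _ (hFe x)
    · intro h
      refine ⟨hpN, fun ε f hf => ?_⟩
      have h1 : DS.IsSys N (ε, fun p => if p.Prime ∧ ¬ p ∣ N then qCoeff f p else 0) :=
        ⟨f, ⟨hf.one, hf.rel⟩, fun p => rfl⟩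
      have h2 := hFp ⟨_, h1⟩ p
      have h3 := h ⟨_, h1⟩
      rw [if_pos ⟨hp, hpN⟩, h3] at h2
      simpa [hp, hpN] using h2
  have hdens := density_of_class ψ.rangeRestrict ψ.rangeRestrict_surjective
    (DS.factors_rangeRestrict hfac) {g : ψ.range | ∀ x, (g.1 x).1.trace = 0} ?_ (zeroPrimes N)
    N.primeFactors ?_
  · refine ⟨(Nat.card {g : ψ.range | ∀ x, (g.1 x).1.trace = 0} : ℚ) / Nat.card ψ.range, ?_, ?_⟩
    · have h2 : 0 < Nat.card {g : ψ.range | ∀ x, (g.1 x).1.trace = 0} := by
        have : Nonempty {g : ψ.range | ∀ x, (g.1 x).1.trace = 0} :=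
          ⟨⟨⟨ψ complexConjugation, ⟨_, rfl⟩⟩, fun x => (hr x).trace_cc (hFe x)⟩⟩
        exact Nat.card_pos
      have h3 : 0 < Nat.card ψ.range := Nat.card_pos
      positivity
    · push_cast
      exact hdens
  · intro g c hc x
    show ((g * c * g⁻¹ : ψ.range).1 x).1.trace = 0
    rw [Subgroup.coe_mul, Subgroup.coe_mul, Subgroup.coe_inv, Pi.mul_apply, Pi.mul_apply,
      Pi.inv_apply, trace_conj]
    exact hc x
  · intro p hp hpB A hA
    have hpN := not_dvd_of_notMem hp hpB
    refine ⟨fun τ hτ => Subtype.ext (funext fun x => (hr x).unr p hp hpN A hA τ hτ),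
      fun σ hσ => ?_⟩
    rw [hkey p hp hpN]
    refine forall_congr' fun x => ?_
    rw [← (hr x).trace p hp hpN A hA σ hσ]
    rfl

variable {N}

/-- For these primes the operator `T_p` on `S₁(Γ₁(N))` is nilpotent. -/
theorem isNilpotent_tCusp {p : ℕ} [hp : Fact p.Prime] (h : p ∈ zeroPrimes N) :
    IsNilpotent (tCusp N (Gamma1 N) 1 p) := by
  have := finiteDimensional_S1 N
  rw [LinearMap.isNilpotent_iff_charpoly]
  set T : Module.End ℂ (CuspForm (Gamma1 N) 1) := tCusp N (Gamma1 N) 1 p with hT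
  have h1 := (IsAlgClosed.splits (LinearMap.charpoly T)).eq_prod_roots_of_monic
    (LinearMap.charpoly_monic T)
  have h2 : (LinearMap.charpoly T).roots =
      Multiset.replicate (Module.finrank ℂ (CuspForm (Gamma1 N) 1)) 0 := by
    refine Multiset.eq_replicate.mpr ⟨?_, fun t ht => ?_⟩
    · rw [← (IsAlgClosed.splits (LinearMap.charpoly T)).natDegree_eq_card_roots,
        LinearMap.charpoly_natDegree]
    · have h3 : Module.End.HasEigenvalue T t := by
        rw [Module.End.hasEigenvalue_iff_isRoot_charpoly]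
        exact Polynomial.isRoot_of_mem_roots ht
      obtain ⟨ε, g, hg, rfl⟩ := exists_isNormEigen_of_eigenvalue h.1 h3
      exact h.2 ε g hg
  rw [h1, h2, Multiset.map_replicate, Multiset.prod_replicate, Polynomial.C_0, sub_zero]

/-- A nilpotent operator makes a non-zero stable subspace smaller. -/
theorem finrank_map_lt {V : Type*} [AddCommGroup V] [Module ℂ V] [FiniteDimensional ℂ V]
    {T : Module.End ℂ V} (hT : IsNilpotent T) {W : Submodule ℂ V} (hW : W ≠ ⊥)
    (hst : ∀ w ∈ W, T w ∈ W) : Module.finrank ℂ (W.map T) < Module.finrank ℂ W := by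
  have h1 : W.map T ≤ W := by
    rintro _ ⟨w, hw, rfl⟩
    exact hst w hw
  refine Submodule.finrank_lt_finrank_of_lt (lt_of_le_of_ne h1 fun h2 => hW ?_)
  obtain ⟨n, hn⟩ := hT
  have h3 : ∀ k : ℕ, W.map (T ^ k) = W := by
    intro k
    induction k with
    | zero =>
      rw [pow_zero]
      exact Submodule.map_id W
    | succ k ih =>
      rw [pow_succ, Module.End.mul_eq_comp, Submodule.map_comp, h2, ih]
  rw [← h3 n, hn, Submodule.map_zero]

/-- `a_n(f) = 0` for all cusp forms `f` of weight one in a Hecke stable space of dimension at most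
`k`, if at least `k` of the `zeroPrimes` divide `n` exactly once. -/
theorem coeff_eq_zero_of_many (k : ℕ) : ∀ W : Submodule ℂ (CuspForm (Gamma1 N) 1),
    (∀ (q : ℕ) (_ : Fact q.Prime), ∀ w ∈ W, tCusp N (Gamma1 N) 1 q w ∈ W) →
    Module.finrank ℂ W ≤ k → ∀ f ∈ W, ∀ n : ℕ,
    Many k {p | p.Prime ∧ p ∈ zeroPrimes N} n → qCoeff f n = 0 := by
  have := finiteDimensional_S1 N
  have h0 : ∀ n, qCoeff ⇑(0 : CuspForm (Gamma1 N) 1) n = 0 := fun n =>
    (qLin N (Gamma1 N) 1 n).map_zero
  induction k with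
  | zero =>
    intro W _ hW f hf n _
    rw [Nat.le_zero, Submodule.finrank_eq_zero] at hW
    rw [hW, Submodule.mem_bot] at hf
    rw [hf, h0]
  | succ k ih =>
    rintro W hst hW f hf n ⟨T, hT, hT'⟩
    obtain ⟨p, hpT⟩ : T.Nonempty := by
      rw [← Finset.card_pos, hT]
      exact Nat.succ_pos k
    obtain ⟨⟨hp, hpz⟩, ⟨m, rfl⟩, h2⟩ := hT' p hpT
    have hpF : Fact p.Prime := ⟨hp⟩
    have h3 : ¬ p ∣ m := fun h4 => h2 (by rw [pow_two]; exact Nat.mul_dvd_mul_left p h4)
    have h4 := qCoeff_tCusp (Gamma1 N) 1 p hpz.1 f m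
    rw [if_neg h3, add_zero, mul_comm m p] at h4
    rw [← h4]
    refine ih (W.map (tCusp N (Gamma1 N) 1 p)) ?_ ?_ _ ⟨f, hf, rfl⟩ m ⟨T.erase p, ?_, ?_⟩
    · rintro q hq _ ⟨w, hw, rfl⟩
      exact ⟨tCusp N (Gamma1 N) 1 q w, hst q hq w hw, tCusp_comm (Gamma1 N) 1 p q w⟩
    · by_cases hWb : W = ⊥
      · rw [hWb, Submodule.map_bot, finrank_bot]
        exact Nat.zero_le k
      · have := finrank_map_lt (isNilpotent_tCusp hpz) hWb (hst p hpF)
        exact Nat.le_of_lt_succ (this.trans_le hW)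
    · rw [Finset.card_erase_of_mem hpT, hT, Nat.add_sub_cancel]
    · intro q hq
      rw [Finset.mem_erase] at hq
      obtain ⟨⟨hqp, hqz⟩, h5, h6⟩ := hT' q hq.2
      refine ⟨⟨hqp, hqz⟩, ?_, fun h7 => h6 (h7.mul_left p)⟩
      rcases hqp.dvd_mul.mp h5 with h7 | h7
      · exact absurd ((Nat.prime_dvd_prime_iff_eq hqp hp).mp h7) hq.1
      · exact h7

open scoped Classical in
/-- **Forms of weight one are lacunary** (Serre): for every cusp form `f = ∑ a_n q^n` of weight one
on `Γ₁(N)`, the integers `n` with `a_n ≠ 0` have natural density `0`. -/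
theorem lacunary (f : CuspForm (Gamma1 N) 1) :
    Tendsto (fun x : ℕ => (((Finset.range x).filter fun n => qCoeff f n ≠ 0).card : ℝ) / x)
      atTop (𝓝 0) := by
  obtain ⟨d, hd, h⟩ := exists_density_zeroPrimes N
  have h1 := tendsto_not_many (Module.finrank ℂ (⊤ : Submodule ℂ (CuspForm (Gamma1 N) 1)))
    (fun p hp => hp.1) (not_summable_of_density h (by exact_mod_cast hd.ne'))
  refine squeeze_zero (fun x => by positivity) (fun x => ?_) h1
  refine div_le_div_of_nonneg_right ?_ (Nat.cast_nonneg x)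
  refine Nat.cast_le.mpr (Finset.card_le_card fun n hn => ?_)
  rw [Finset.mem_filter] at hn ⊢
  exact ⟨hn.1, fun hm => hn.2 (coeff_eq_zero_of_many _ ⊤ (fun _ _ _ _ => trivial) le_rfl f trivial
    n hm)⟩

/-- The operator `T_p` on the space of all cusp forms of weight one on `Γ₁(N)` is nilpotent for a
set of primes of positive density. -/
theorem exists_density_nilpotent (N : ℕ) [NeZero N] : ∃ d : ℚ, 0 < d ∧ ∃ S : Set ℕ,
    HasDirichletDensity S d ∧ ∀ (p : ℕ) (_ : Fact p.Prime), p ∈ S →
      ¬ p ∣ N ∧ IsNilpotent (tCusp N (Gamma1 N) 1 p) := by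
  obtain ⟨d, hd, h⟩ := exists_density_zeroPrimes N
  exact ⟨d, hd, _, h, fun p _ hS => ⟨hS.1, isNilpotent_tCusp hS⟩⟩

end Fermat.Agent.Cor.WtOne

end
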