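import Fermat.Agent.Corollaries.WtOne.Sieve
import Fermat.Agent.Corollaries.WtOne.Forms

/-!
# Serre's bound for the number of non-zero coefficients in weight one

* `isBigO_lacunary`: if the primes `p ∤ N` with `T_p = 0` on `S₁(Γ₁(N))` have density `α` and `δ < α`,
  then `#{n ≤ x : a_n(f) ≠ 0 for some f ∈ S₁(Γ₁(N))} = O(x / (log x)^δ)`;
* `exists_isBigO_lacunary`: this holds with some `δ > 0` for every `N`;
* `isBigO_eigen`: for one eigenform `f`, with the density of the primes with `a_p(f) = 0`;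
* `isBigO_not_mem_ideal`: the same for every function multiplicative on coprime integers with values
  in a commutative ring modulo an ideal.
-/

set_option autoImplicit false

noncomputable section

open CongruenceSubgroup UpperHalfPlane Function Filter Topology
open scoped MatrixGroups ModularForm

namespace Fermat.Agent.Cor.WtOne

open Fermat.Agent.X1 Fermat.Agent.HeckePar ModularFormClass Fermat.Agent.LT.End
open Fermat.Agent.Cor.Div (Exact)

/-- A set of integers without exact divisors in `P` is small. -/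
theorem isBigO_of_imp {P : Set ℕ} (hP : ∀ p ∈ P, p.Prime) {α δ : ℝ}
    (h : HasDirichletDensity P α) (hδ : δ < α) {A : ℕ → Prop} [DecidablePred A]
    (hA : ∀ n, n ≠ 0 → A n → ∀ p ∈ P, ¬ Exact p n) :
    (fun x : ℕ => (((Finset.Icc 1 x).filter A).card : ℝ)) =O[atTop]
      fun x : ℕ => (x : ℝ) / (Real.log x) ^ δ := by
  classical
  refine Asymptotics.IsBigO.trans (Asymptotics.IsBigO.of_bound 1 (Eventually.of_forall fun x => ?_))
    (isBigO_count hP h hδ)
  rw [one_mul, Real.norm_of_nonneg (Nat.cast_nonneg _), Real.norm_of_nonneg (Nat.cast_nonneg _)]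
  refine Nat.cast_le.mpr (Finset.card_le_card fun n hn => ?_)
  rw [Finset.mem_filter] at hn ⊢
  have hn0 : n ≠ 0 := by
    have := (Finset.mem_Icc.mp hn.1).1
    omega
  exact ⟨hn.1, hA n hn0 hn.2⟩

theorem HasDirichletDensity.primes {S : Set ℕ} {d : ℝ} (h : HasDirichletDensity S d) :
    HasDirichletDensity {p | p.Prime ∧ p ∈ S} d :=
  h.congr Set.finite_empty fun _ hp _ => ⟨fun h1 => ⟨hp, h1⟩, fun h1 => h1.2⟩

open scoped Classical in
/-- **Serre's bound**, uniformly for all cusp forms of weight one on `Γ₁(N)`. -/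
theorem isBigO_lacunary (N : ℕ) [NeZero N] {α δ : ℝ} (h : HasDirichletDensity (zeroPrimes N) α)
    (hδ : δ < α) :
    (fun x : ℕ => (((Finset.Icc 1 x).filter fun n =>
      ∃ f : CuspForm (Gamma1 N) 1, qCoeff f n ≠ 0).card : ℝ)) =O[atTop]
      fun x : ℕ => (x : ℝ) / (Real.log x) ^ δ :=
  isBigO_of_imp (P := {p | p.Prime ∧ p ∈ zeroPrimes N}) (fun _ hp => hp.1) h.primes hδ
    fun _ _ ⟨f, hf⟩ _ hp hpn => hf (qCoeff_eq_zero_of_exact hp.1 hp.2 hpn f)

open scoped Classical in
/-- **The number of `n ≤ x` with `a_n(f) ≠ 0` for some cusp form `f` of weight one on `Γ₁(N)` is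
`O(x / (log x)^δ)` with some `δ > 0`.** -/
theorem exists_isBigO_lacunary (N : ℕ) [NeZero N] : ∃ δ : ℝ, 0 < δ ∧
    (fun x : ℕ => (((Finset.Icc 1 x).filter fun n =>
      ∃ f : CuspForm (Gamma1 N) 1, qCoeff f n ≠ 0).card : ℝ)) =O[atTop]
      fun x : ℕ => (x : ℝ) / (Real.log x) ^ δ := by
  obtain ⟨d, hd, h⟩ := exists_density_zeroPrimes N
  have hd' : (0 : ℝ) < d := by exact_mod_cast hd
  exact ⟨d / 2, by positivity, isBigO_lacunary N h (by linarith)⟩

open scoped Classical in
/-- **Serre's bound for one eigenform**: the exponent is any number smaller than the density of the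
primes `p ∤ N` with `a_p = 0`. -/
theorem isBigO_eigen {N : ℕ} [NeZero N] {ε : DirichletCharacter ℂ N} {f : CuspForm (Gamma1 N) 1}
    (hf : IsNormEigen ε f) {α δ : ℝ}
    (h : HasDirichletDensity {p | ¬ p ∣ N ∧ qCoeff f p = 0} α) (hδ : δ < α) :
    (fun x : ℕ => (((Finset.Icc 1 x).filter fun n => qCoeff f n ≠ 0).card : ℝ)) =O[atTop]
      fun x : ℕ => (x : ℝ) / (Real.log x) ^ δ := by
  refine isBigO_of_imp (P := {p | p.Prime ∧ p ∈ {p | ¬ p ∣ N ∧ qCoeff f p = 0}})
    (fun p hp => hp.1) h.primes hδ ?_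
  rintro n - hn p ⟨hp, hpN, hp0⟩ ⟨⟨m, rfl⟩, h2⟩
  have h3 : ¬ p ∣ m := fun h4 => h2 (by rw [pow_two]; exact Nat.mul_dvd_mul_left p h4)
  have h4 := hf.rel p hp hpN m
  rw [if_neg h3, mul_zero, add_zero, hp0, zero_mul] at h4
  exact hn h4

open scoped Classical in
/-- **Values outside an ideal**: a function `a` multiplicative on coprime integers with `a p ∈ I` for
the primes of a set of density `α` has `a n ∉ I` for `O(x / (log x)^δ)` of the `n ≤ x`, `δ < α`. -/
theorem isBigO_not_mem_ideal {R : Type*} [CommRing R] (I : Ideal R) {a : ℕ → R}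
    (hmul : ∀ m n : ℕ, m.Coprime n → a (m * n) = a m * a n) {P : Set ℕ} (hP : ∀ p ∈ P, p.Prime)
    (hI : ∀ p ∈ P, a p ∈ I) {α δ : ℝ} (h : HasDirichletDensity P α) (hδ : δ < α) :
    (fun x : ℕ => (((Finset.Icc 1 x).filter fun n => a n ∉ I).card : ℝ)) =O[atTop]
      fun x : ℕ => (x : ℝ) / (Real.log x) ^ δ := by
  refine isBigO_of_imp hP h hδ ?_
  rintro n - hn p hp ⟨⟨m, rfl⟩, h2⟩
  have h3 : ¬ p ∣ m := fun h4 => h2 (by rw [pow_two]; exact Nat.mul_dvd_mul_left p h4)
  apply hn
  rw [hmul p m ((Nat.Prime.coprime_iff_not_dvd (hP p hp)).mpr h3)]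
  exact I.mul_mem_right _ (hI p hp)

end Fermat.Agent.Cor.WtOne

end
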