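import Fermat.Agent.Corollaries.WtOne.Lacunary
import Mathlib.NumberTheory.Chebyshev
import Mathlib.NumberTheory.LSeries.PrimesInAP
import Mathlib.NumberTheory.EulerProduct.Basic

/-!
# The sieve with a power of the logarithm

`isBigO_count`: if the set of primes `P` has Dirichlet density `α`, then for every `δ < α` the number
of `n < x` which no `p ∈ P` divides exactly once is `O(x / (log x)^δ)`.
-/

set_option autoImplicit false

noncomputable section

open Filter Topology Finset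

namespace Fermat.Agent.Cor.WtOne

open Fermat.Agent.Cor.Div (Exact)

/-! ### The indicator function -/

open scoped Classical in
/-- the indicator function of the integers `n ≠ 0` without exact prime divisor in `P` -/
def ind (P : Set ℕ) (n : ℕ) : ℝ := if n ≠ 0 ∧ ∀ p ∈ P, ¬ Exact p n then 1 else 0

variable {P : Set ℕ}

theorem ind_nonneg (n : ℕ) : 0 ≤ ind P n := by
  unfold ind
  split_ifs <;> norm_num

theorem ind_le_one (n : ℕ) : ind P n ≤ 1 := by
  unfold ind
  split_ifs <;> norm_num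

theorem ind_zero : ind P 0 = 0 := by
  unfold ind
  rw [if_neg]
  exact fun h => h.1 rfl

theorem ind_one (hP : ∀ p ∈ P, p.Prime) : ind P 1 = 1 := by
  unfold ind
  rw [if_pos]
  exact ⟨one_ne_zero, fun p hp h => (hP p hp).one_lt.ne' (Nat.dvd_one.mp h.1)⟩

theorem exact_mul_iff {p m n : ℕ} (hp : p.Prime) (h : m.Coprime n) :
    Exact p (m * n) ↔ Exact p m ∨ Exact p n := by
  have key : ∀ a b : ℕ, a.Coprime b → p ∣ a → (p ^ 2 ∣ a * b ↔ p ^ 2 ∣ a) := by
    intro a b hab hpa
    have hpb : (p ^ 2).Coprime b := by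
      refine Nat.Coprime.pow_left 2 ?_
      exact Nat.Coprime.coprime_dvd_left hpa hab
    exact ⟨fun h => hpb.dvd_of_dvd_mul_right h, fun h => h.mul_right b⟩
  constructor
  · rintro ⟨h1, h2⟩
    rcases hp.dvd_mul.mp h1 with h3 | h3
    · exact Or.inl ⟨h3, fun h4 => h2 (h4.mul_right n)⟩
    · exact Or.inr ⟨h3, fun h4 => h2 (h4.mul_left m)⟩
  · rintro (⟨h1, h2⟩ | ⟨h1, h2⟩)
    · exact ⟨h1.mul_right n, fun h3 => h2 ((key m n h h1).mp h3)⟩
    · refine ⟨h1.mul_left m, fun h3 => h2 ((key n m h.symm h1).mp ?_)⟩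
      rwa [mul_comm]

theorem ind_mul (hP : ∀ p ∈ P, p.Prime) {m n : ℕ} (h : m.Coprime n) :
    ind P (m * n) = ind P m * ind P n := by
  unfold ind
  by_cases hm : m ≠ 0 ∧ ∀ p ∈ P, ¬ Exact p m
  · by_cases hn : n ≠ 0 ∧ ∀ p ∈ P, ¬ Exact p n
    · rw [if_pos hm, if_pos hn, if_pos, one_mul]
      refine ⟨mul_ne_zero hm.1 hn.1, fun p hp hex => ?_⟩
      rcases (exact_mul_iff (hP p hp) h).mp hex with h1 | h1
      · exact hm.2 p hp h1
      · exact hn.2 p hp h1
    · rw [if_pos hm, if_neg hn, if_neg, mul_zero]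
      rintro ⟨h0, h1⟩
      exact hn ⟨fun h2 => h0 (by rw [h2, mul_zero]), fun p hp hex =>
        h1 p hp ((exact_mul_iff (hP p hp) h).mpr (Or.inr hex))⟩
  · rw [if_neg hm, if_neg, zero_mul]
    rintro ⟨h0, h1⟩
    exact hm ⟨fun h2 => h0 (by rw [h2, zero_mul]), fun p hp hex =>
      h1 p hp ((exact_mul_iff (hP p hp) h).mpr (Or.inl hex))⟩

theorem ind_prime_of_mem {p : ℕ} (hp : p ∈ P) (hpp : p.Prime) : ind P p = 0 := by
  unfold ind
  rw [if_neg]
  rintro ⟨-, h⟩
  refine h p hp ⟨dvd_rfl, fun h1 => ?_⟩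
  have h2 := Nat.le_of_dvd hpp.pos h1
  have h3 := hpp.one_lt
  nlinarith

/-! ### The Euler product -/

/-- the Dirichlet series of `ind P` at a real number `s > 1` -/
theorem summable_ind {s : ℝ} (hs : 1 < s) : Summable fun n : ℕ => ind P n * (n : ℝ) ^ (-s) := by
  refine Summable.of_nonneg_of_le (fun n => mul_nonneg (ind_nonneg n) (by positivity))
    (fun n => ?_) (Real.summable_nat_rpow.mpr (by linarith : -s < -1))
  exact mul_le_of_le_one_left (by positivity) (ind_le_one n)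

theorem tsum_pow_le {s : ℝ} (hs : 1 < s) {p : ℕ} (hp : p.Prime) :
    ∑' e : ℕ, ind P (p ^ e) * ((p ^ e : ℕ) : ℝ) ^ (-s) ≤
      Real.exp (Set.indicator {p : ℕ | p.Prime ∧ p ∈ Pᶜ} (fun p : ℕ => (p : ℝ) ^ (-s)) p +
        2 * (1 / (p : ℝ) ^ 2)) := by
  set y : ℝ := (p : ℝ) ^ (-s) with hy
  have hp2 : (2 : ℝ) ≤ p := by exact_mod_cast hp.two_le
  have hp0 : (0 : ℝ) < p := by linarith
  have hy0 : 0 < y := Real.rpow_pos_of_pos hp0 _
  have hyp : y ≤ 1 / p := by
    rw [one_div, ← Real.rpow_neg_one]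
    exact Real.rpow_le_rpow_of_exponent_le (by linarith) (by linarith)
  have hy2 : y ≤ 1 / 2 := hyp.trans (one_div_le_one_div_of_le (by norm_num) hp2)
  have hye : ∀ e : ℕ, ((p ^ e : ℕ) : ℝ) ^ (-s) = y ^ e := by
    intro e
    rw [hy, Nat.cast_pow, ← Real.rpow_natCast, ← Real.rpow_natCast, ← Real.rpow_mul hp0.le,
      ← Real.rpow_mul hp0.le, mul_comm]
  set F : ℕ → ℝ := fun e => ind P (p ^ e) * ((p ^ e : ℕ) : ℝ) ^ (-s) with hF
  have hF0 : ∀ e, 0 ≤ F e := fun e => mul_nonneg (ind_nonneg _) (by positivity)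
  have hFle : ∀ e, F e ≤ y ^ e := fun e => by
    rw [hF]
    simp only
    rw [hye]
    exact mul_le_of_le_one_left (by positivity) (ind_le_one _)
  have hFs : Summable F := Summable.of_nonneg_of_le hF0 hFle
    (summable_geometric_of_lt_one hy0.le (by linarith))
  have h1 : ∑' e : ℕ, F e = F 0 + F 1 + ∑' e : ℕ, F (e + 2) := by
    rw [← hFs.sum_add_tsum_nat_add 2, Finset.sum_range_succ, Finset.sum_range_one]
  have h2 : ∑' e : ℕ, F (e + 2) ≤ 2 * (1 / (p : ℝ) ^ 2) := by
    have h3 : ∑' e : ℕ, F (e + 2) ≤ ∑' e : ℕ, y ^ 2 * y ^ e := by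
      refine ((summable_nat_add_iff 2).mpr hFs).tsum_le_tsum (fun e => ?_)
        ((summable_geometric_of_lt_one hy0.le (by linarith)).mul_left _)
      rw [← pow_add, add_comm 2 e]
      exact hFle (e + 2)
    rw [tsum_mul_left, tsum_geometric_of_lt_one hy0.le (by linarith)] at h3
    refine h3.trans ?_
    have h4 : (1 - y)⁻¹ ≤ 2 := by
      rw [inv_le_comm₀ (by linarith) (by norm_num)]
      linarith
    have h5 : y ^ 2 ≤ 1 / (p : ℝ) ^ 2 := by
      have := pow_le_pow_left₀ hy0.le hyp 2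
      rwa [one_div, inv_pow, ← one_div] at this
    have h6 : y ^ 2 * (1 - y)⁻¹ ≤ (1 / (p : ℝ) ^ 2) * 2 :=
      mul_le_mul h5 h4 (inv_nonneg.mpr (by linarith)) (by positivity)
    linarith
  have h3 : F 0 ≤ 1 := by simpa using hFle 0
  have h4 : F 1 ≤ Set.indicator {p : ℕ | p.Prime ∧ p ∈ Pᶜ} (fun p : ℕ => (p : ℝ) ^ (-s)) p := by
    by_cases hpP : p ∈ P
    · rw [hF]
      simp only [pow_one]
      rw [ind_prime_of_mem hpP hp, zero_mul]
      exact Set.indicator_nonneg (fun p _ => by positivity) p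
    · have h5 : p ∈ {p : ℕ | p.Prime ∧ p ∈ Pᶜ} := ⟨hp, hpP⟩
      rw [Set.indicator_of_mem h5]
      simpa using hFle 1
  have h5 : ∑' e : ℕ, F e ≤ (Set.indicator {p : ℕ | p.Prime ∧ p ∈ Pᶜ}
      (fun p : ℕ => (p : ℝ) ^ (-s)) p + 2 * (1 / (p : ℝ) ^ 2)) + 1 := by
    rw [h1]
    linarith
  exact h5.trans (Real.add_one_le_exp _)

/-- **Upper bound for the Dirichlet series.** -/
theorem tsum_ind_le (hP : ∀ p ∈ P, p.Prime) {s : ℝ} (hs : 1 < s) :
    ∑' n : ℕ, ind P n * (n : ℝ) ^ (-s) ≤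
      Real.exp (DS.primeSum Pᶜ s + 2 * ∑' n : ℕ, 1 / (n : ℝ) ^ 2) := by
  classical
  have hsum := summable_ind (P := P) hs
  have hprod := EulerProduct.eulerProduct_hasProd (f := fun n : ℕ => ind P n * (n : ℝ) ^ (-s))
    (by rw [ind_one hP]; simp)
    (fun {m n} h => by
      rw [ind_mul hP h, Nat.cast_mul, Real.mul_rpow (Nat.cast_nonneg _) (Nat.cast_nonneg _)]
      ring)
    (by
      refine hsum.congr fun n => ?_
      rw [Real.norm_of_nonneg (mul_nonneg (ind_nonneg n) (by positivity))])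
    (by rw [ind_zero, zero_mul])
  refine hasProd_le_of_prod_le hprod fun t => ?_
  have h1 : ∀ p ∈ t, ∑' e : ℕ, ind P ((p : ℕ) ^ e) * (((p : ℕ) ^ e : ℕ) : ℝ) ^ (-s) ≤
      Real.exp (Set.indicator {p : ℕ | p.Prime ∧ p ∈ Pᶜ} (fun p : ℕ => (p : ℝ) ^ (-s)) (p : ℕ) +
        2 * (1 / ((p : ℕ) : ℝ) ^ 2)) := fun p _ => tsum_pow_le hs p.2
  refine (Finset.prod_le_prod (fun p _ => tsum_nonneg fun e =>
    mul_nonneg (ind_nonneg _) (by positivity)) h1).trans ?_
  rw [← Real.exp_sum, Real.exp_le_exp, Finset.sum_add_distrib]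
  have hinj : Set.InjOn (fun p : Nat.Primes => (p : ℕ)) (t : Set Nat.Primes) :=
    fun a _ b _ h => Subtype.ext h
  refine add_le_add ?_ ?_
  · rw [primeSum_eq_tsum]
    have h2 := (summable_indicator Pᶜ hs).sum_le_tsum (t.image fun p : Nat.Primes => (p : ℕ))
      (fun n _ => Set.indicator_nonneg (fun p _ => by positivity) n)
    rwa [Finset.sum_image hinj] at h2
  · rw [← Finset.mul_sum]
    refine mul_le_mul_of_nonneg_left ?_ (by norm_num)
    have h2 := (Real.summable_one_div_nat_pow.mpr (one_lt_two)).sum_le_tsum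
      (t.image fun p : Nat.Primes => (p : ℕ)) (fun n _ => by positivity)
    rwa [Finset.sum_image hinj] at h2

/-! ### The logarithm -/

open ArithmeticFunction in
/-- `Λ` restricted to the non-primes -/
def lamNP (n : ℕ) : ℝ := if n.Prime then 0 else vonMangoldt n

theorem lamNP_nonneg (n : ℕ) : 0 ≤ lamNP n := by
  unfold lamNP
  split_ifs
  · exact le_rfl
  · exact ArithmeticFunction.vonMangoldt_nonneg

theorem summable_lamNP : Summable fun n : ℕ => lamNP n / n := by
  have h := ArithmeticFunction.vonMangoldt.summable_residueClass_non_primes_div (q := 1) 0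
  refine h.congr fun n => ?_
  congr 1
  unfold lamNP
  split_ifs
  · rfl
  · rw [ArithmeticFunction.vonMangoldt.residueClass, Set.indicator_of_mem]
    exact Subsingleton.elim _ _

open scoped Classical in
/-- The logarithm is bounded by the exact prime divisors and the non-prime prime powers. -/
theorem log_le {n : ℕ} (hn : n ≠ 0) : Real.log n ≤
    ∑ p ∈ n.primeFactors with Exact p n, Real.log p + 2 * ∑ d ∈ n.divisors, lamNP d := by
  have h1 : ∑ d ∈ n.divisors, ArithmeticFunction.vonMangoldt d = Real.log n :=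
    ArithmeticFunction.vonMangoldt_sum
  have h2 : ∑ d ∈ n.divisors, ArithmeticFunction.vonMangoldt d =
      ∑ p ∈ n.primeFactors, Real.log p + ∑ d ∈ n.divisors, lamNP d := by
    rw [← Finset.sum_filter_add_sum_filter_not n.divisors Nat.Prime]
    congr 1
    · have h3 : n.divisors.filter Nat.Prime = n.primeFactors := by
        ext p
        simp only [Finset.mem_filter, Nat.mem_divisors, Nat.mem_primeFactors]
        tauto
      rw [h3]
      exact Finset.sum_congr rfl fun p hp =>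
        ArithmeticFunction.vonMangoldt_apply_prime (Nat.prime_of_mem_primeFactors hp)
    · rw [Finset.sum_filter]
      refine Finset.sum_congr rfl fun d _ => ?_
      unfold lamNP
      split_ifs <;> simp_all
  have h3 : ∑ p ∈ n.primeFactors, Real.log p =
      ∑ p ∈ n.primeFactors with Exact p n, Real.log p +
        ∑ p ∈ n.primeFactors with ¬ Exact p n, Real.log p :=
    (Finset.sum_filter_add_sum_filter_not _ _ _).symm
  have h4 : ∑ p ∈ n.primeFactors with ¬ Exact p n, Real.log p ≤ ∑ d ∈ n.divisors, lamNP d := by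
    have hinj : Set.InjOn (fun p : ℕ => p ^ 2)
        ((n.primeFactors.filter fun p => ¬ Exact p n : Finset ℕ) : Set ℕ) :=
      fun a _ b _ h => Nat.pow_left_injective (n := 2) (by norm_num) h
    calc ∑ p ∈ n.primeFactors with ¬ Exact p n, Real.log p
        = ∑ p ∈ n.primeFactors with ¬ Exact p n, lamNP (p ^ 2) := by
          refine Finset.sum_congr rfl fun p hp => ?_
          have hpp := Nat.prime_of_mem_primeFactors (Finset.mem_filter.mp hp).1
          unfold lamNP
          rw [if_neg (Nat.Prime.not_prime_pow le_rfl),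
            ArithmeticFunction.vonMangoldt_apply_pow (by norm_num),
            ArithmeticFunction.vonMangoldt_apply_prime hpp]
      _ = ∑ d ∈ (n.primeFactors.filter fun p => ¬ Exact p n).image (fun p => p ^ 2), lamNP d :=
          (Finset.sum_image hinj).symm
      _ ≤ ∑ d ∈ n.divisors, lamNP d := by
          refine Finset.sum_le_sum_of_subset_of_nonneg ?_ fun d _ _ => lamNP_nonneg d
          intro d hd
          obtain ⟨p, hp, rfl⟩ := Finset.mem_image.mp hd
          rw [Finset.mem_filter] at hp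
          rw [Nat.mem_divisors]
          refine ⟨?_, hn⟩
          by_contra h
          exact hp.2 ⟨Nat.dvd_of_mem_primeFactors hp.1, h⟩
  rw [← h1, h2, h3]
  linarith

/-! ### The two sums -/

/-- the non-prime part -/
theorem sum_lamNP_le (x : ℕ) : ∑ n ∈ Finset.Icc 1 x, ∑ d ∈ n.divisors, lamNP d ≤
    (∑' n : ℕ, lamNP n / n) * x := by
  have h1 : ∀ n ∈ Finset.Icc 1 x, ∑ d ∈ n.divisors, lamNP d =
      ∑ d ∈ Finset.Icc 1 x, if d ∣ n then lamNP d else 0 := by
    intro n hn
    rw [Finset.mem_Icc] at hn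
    rw [← Finset.sum_filter]
    refine Finset.sum_congr ?_ fun _ _ => rfl
    ext d
    simp only [Nat.mem_divisors, Finset.mem_filter, Finset.mem_Icc]
    constructor
    · rintro ⟨h2, h3⟩
      exact ⟨⟨Nat.pos_of_dvd_of_pos h2 (by omega), (Nat.le_of_dvd (by omega) h2).trans hn.2⟩, h2⟩
    · rintro ⟨-, h2⟩
      exact ⟨h2, by omega⟩
  rw [Finset.sum_congr rfl h1, Finset.sum_comm]
  have h2 : ∀ d ∈ Finset.Icc 1 x, ∑ n ∈ Finset.Icc 1 x, (if d ∣ n then lamNP d else 0) ≤
      lamNP d / d * x := by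
    intro d hd
    rw [← Finset.sum_filter, Finset.sum_const, nsmul_eq_mul]
    have h3 : ((Finset.Icc 1 x).filter fun n => d ∣ n).card = x / d := by
      have : Finset.Icc 1 x = Finset.Ioc 0 x := by
        ext n
        simp only [Finset.mem_Icc, Finset.mem_Ioc]
        omega
      rw [this, Nat.Ioc_filter_dvd_card_eq_div]
    rw [h3]
    have h4 : ((x / d : ℕ) : ℝ) ≤ (x : ℝ) / d := Nat.cast_div_le
    calc ((x / d : ℕ) : ℝ) * lamNP d ≤ (x : ℝ) / d * lamNP d :=
          mul_le_mul_of_nonneg_right h4 (lamNP_nonneg d)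
      _ = lamNP d / d * x := by ring
  refine (Finset.sum_le_sum h2).trans ?_
  rw [← Finset.sum_mul]
  refine mul_le_mul_of_nonneg_right ?_ (Nat.cast_nonneg x)
  exact summable_lamNP.sum_le_tsum _ fun n _ => div_nonneg (lamNP_nonneg n) (Nat.cast_nonneg n)

open scoped Classical in
/-- the prime part -/
theorem sum_exact_le (hP : ∀ p ∈ P, p.Prime) (x : ℕ) :
    ∑ n ∈ Finset.Icc 1 x, ind P n * ∑ p ∈ n.primeFactors with Exact p n, Real.log p ≤
      Real.log 4 * x * ∑ m ∈ Finset.Icc 1 x, ind P m / m := by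
  have h1 : ∑ n ∈ Finset.Icc 1 x, ind P n * ∑ p ∈ n.primeFactors with Exact p n, Real.log p =
      ∑ y ∈ (Finset.Icc 1 x).sigma (fun n => n.primeFactors.filter fun p => Exact p n),
        ind P y.1 * Real.log y.2 := by
    rw [Finset.sum_sigma]
    exact Finset.sum_congr rfl fun n _ => Finset.mul_sum _ _ _
  have h2 : ∑ m ∈ Finset.Icc 1 x, ind P m * Chebyshev.theta ((x : ℝ) / m) =
      ∑ y ∈ (Finset.Icc 1 x).sigma (fun m => (Finset.Ioc 0 ⌊(x : ℝ) / m⌋₊).filter Nat.Prime),
        ind P y.1 * Real.log y.2 := by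
    rw [Finset.sum_sigma]
    exact Finset.sum_congr rfl fun n _ => Finset.mul_sum _ _ _
  have h3 : ∑ n ∈ Finset.Icc 1 x, ind P n * ∑ p ∈ n.primeFactors with Exact p n, Real.log p ≤
      ∑ m ∈ Finset.Icc 1 x, ind P m * Chebyshev.theta ((x : ℝ) / m) := by
    rw [h1, h2]
    set i : (Σ _ : ℕ, ℕ) → (Σ _ : ℕ, ℕ) := fun y => ⟨y.1 / y.2, y.2⟩ with hi
    have hA : ∀ y ∈ (Finset.Icc 1 x).sigma (fun n => n.primeFactors.filter fun p => Exact p n),
        y.1 ∈ Finset.Icc 1 x ∧ y.2.Prime ∧ y.1 = y.2 * (y.1 / y.2) ∧ ¬ y.2 ∣ y.1 / y.2 := by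
      rintro ⟨n, p⟩ hy
      rw [Finset.mem_sigma, Finset.mem_filter] at hy
      obtain ⟨h4, h5, h6, h7⟩ := hy
      refine ⟨h4, Nat.prime_of_mem_primeFactors h5, (Nat.mul_div_cancel' h6).symm, fun h8 => h7 ?_⟩
      obtain ⟨c, hc⟩ := h8
      refine ⟨c, ?_⟩
      have h9 := (Nat.mul_div_cancel' h6).symm
      simp only at hc h9
      rw [h9, hc]
      ring
    have hinj : Set.InjOn i
        ((Finset.Icc 1 x).sigma (fun n => n.primeFactors.filter fun p => Exact p n) :
          Finset (Σ _ : ℕ, ℕ)) := by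
      rintro ⟨n, p⟩ hy ⟨n', p'⟩ hy' h
      obtain ⟨-, -, h6, -⟩ := hA _ hy
      obtain ⟨-, -, h6', -⟩ := hA _ hy'
      simp only [hi, Sigma.mk.injEq, heq_eq_eq] at h h6 h6'
      obtain ⟨h7, rfl⟩ := h
      rw [h7] at h6
      rw [h6, ← h6']
    calc ∑ y ∈ (Finset.Icc 1 x).sigma (fun n => n.primeFactors.filter fun p => Exact p n),
          ind P y.1 * Real.log y.2
        ≤ ∑ y ∈ (Finset.Icc 1 x).sigma (fun n => n.primeFactors.filter fun p => Exact p n),
          ind P (i y).1 * Real.log (i y).2 := by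
          refine Finset.sum_le_sum fun y hy => ?_
          obtain ⟨h4, h5, h6, h7⟩ := hA y hy
          refine mul_le_mul_of_nonneg_right ?_ (Real.log_natCast_nonneg _)
          show ind P y.1 ≤ ind P (y.1 / y.2)
          conv_lhs => rw [h6]
          rw [ind_mul hP ((Nat.Prime.coprime_iff_not_dvd h5).mpr h7)]
          exact mul_le_of_le_one_left (ind_nonneg _) (ind_le_one _)
      _ = ∑ y ∈ ((Finset.Icc 1 x).sigma
            (fun n => n.primeFactors.filter fun p => Exact p n)).image i,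
          ind P y.1 * Real.log y.2 := by
          rw [Finset.sum_image hinj]
      _ ≤ ∑ y ∈ (Finset.Icc 1 x).sigma
            (fun m => (Finset.Ioc 0 ⌊(x : ℝ) / m⌋₊).filter Nat.Prime),
          ind P y.1 * Real.log y.2 := by
          refine Finset.sum_le_sum_of_subset_of_nonneg ?_ fun y _ _ =>
            mul_nonneg (ind_nonneg _) (Real.log_natCast_nonneg _)
          intro z hz
          obtain ⟨y, hy, rfl⟩ := Finset.mem_image.mp hz
          obtain ⟨h4, h5, h6, h7⟩ := hA y hy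
          rw [Finset.mem_Icc] at h4
          have hm0 : 0 < y.1 / y.2 := by
            rcases Nat.eq_zero_or_pos (y.1 / y.2) with h8 | h8
            · rw [h8, mul_zero] at h6
              omega
            · exact h8
          rw [Finset.mem_sigma, Finset.mem_filter, Finset.mem_Icc, Finset.mem_Ioc]
          refine ⟨⟨hm0, (Nat.div_le_self _ _).trans h4.2⟩, ⟨h5.pos, ?_⟩, h5⟩
          rw [Nat.le_floor_iff (by positivity)]
          show ((y.2 : ℕ) : ℝ) ≤ (x : ℝ) / ((y.1 / y.2 : ℕ) : ℝ)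
          have hm0' : (0 : ℝ) < ((y.1 / y.2 : ℕ) : ℝ) := by exact_mod_cast hm0
          rw [le_div_iff₀ hm0']
          have h8 : y.2 * (y.1 / y.2) ≤ x := by rw [← h6]; exact h4.2
          exact_mod_cast h8
  refine h3.trans ?_
  rw [Finset.mul_sum]
  refine Finset.sum_le_sum fun m hm => ?_
  have hm0 : (0 : ℝ) < m := by exact_mod_cast (Finset.mem_Icc.mp hm).1
  have h4 := Chebyshev.theta_le_log4_mul_x (x := (x : ℝ) / m) (by positivity)
  calc ind P m * Chebyshev.theta ((x : ℝ) / m) ≤ ind P m * (Real.log 4 * ((x : ℝ) / m)) :=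
        mul_le_mul_of_nonneg_left h4 (ind_nonneg m)
    _ = Real.log 4 * x * (ind P m / m) := by ring

/-! ### The main estimate -/

/-- `∑_{n ≤ x} (log x - log n) ≤ x` -/
theorem sum_log_sub_le (x : ℕ) : ∑ n ∈ Finset.Icc 1 x, (Real.log x - Real.log n) ≤ x := by
  have h1 : ∑ n ∈ Finset.Icc 1 x, Real.log (n : ℝ) = Real.log (x.factorial : ℝ) := by
    rw [← Real.log_prod (fun n hn => by
      have := (Finset.mem_Icc.mp hn).1
      positivity)]
    congr 1
    rw [← Nat.cast_prod]
    congr 1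
    induction x with
    | zero => rfl
    | succ x ih =>
      rw [Finset.prod_Icc_succ_top (by omega), ih, Nat.factorial_succ, mul_comm]
  rw [Finset.sum_sub_distrib, h1, Finset.sum_const, Nat.card_Icc, nsmul_eq_mul,
    Nat.add_sub_cancel]
  rcases Nat.eq_zero_or_pos x with rfl | hx
  · simp
  have hx0 : (0 : ℝ) < x := by exact_mod_cast hx
  have h2 := Real.pow_div_factorial_le_exp (x := (x : ℝ)) (Nat.cast_nonneg x) x
  have h3 := Real.log_le_log (by positivity) h2
  rw [Real.log_exp, Real.log_div (by positivity) (by positivity), Real.log_pow] at h3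
  linarith

/-- The inequality behind the estimate (the method of Hall and Tenenbaum). -/
theorem sum_ind_mul_log_le (hP : ∀ p ∈ P, p.Prime) (x : ℕ) :
    (∑ n ∈ Finset.Icc 1 x, ind P n) * Real.log x ≤
      Real.log 4 * x * ∑ m ∈ Finset.Icc 1 x, ind P m / m +
        (2 * (∑' n : ℕ, lamNP n / n) + 1) * x := by
  classical
  have h1 : (∑ n ∈ Finset.Icc 1 x, ind P n) * Real.log x =
      ∑ n ∈ Finset.Icc 1 x, ind P n * Real.log n +
        ∑ n ∈ Finset.Icc 1 x, ind P n * (Real.log x - Real.log n) := by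
    rw [Finset.sum_mul, ← Finset.sum_add_distrib]
    exact Finset.sum_congr rfl fun n _ => by ring
  have h2 : ∑ n ∈ Finset.Icc 1 x, ind P n * (Real.log x - Real.log n) ≤ x := by
    refine (Finset.sum_le_sum fun n hn => ?_).trans (sum_log_sub_le x)
    rw [Finset.mem_Icc] at hn
    refine mul_le_of_le_one_left ?_ (ind_le_one n)
    rw [sub_nonneg]
    have hn1 : (0 : ℝ) < n := by exact_mod_cast hn.1
    exact Real.log_le_log hn1 (by exact_mod_cast hn.2)
  have h3 : ∑ n ∈ Finset.Icc 1 x, ind P n * Real.log n ≤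
      ∑ n ∈ Finset.Icc 1 x, ind P n * ∑ p ∈ n.primeFactors with Exact p n, Real.log p +
        2 * ∑ n ∈ Finset.Icc 1 x, ∑ d ∈ n.divisors, lamNP d := by
    rw [Finset.mul_sum, ← Finset.sum_add_distrib]
    refine Finset.sum_le_sum fun n hn => ?_
    rw [Finset.mem_Icc] at hn
    have h4 := mul_le_mul_of_nonneg_left (log_le (n := n) (by omega)) (ind_nonneg (P := P) n)
    rw [mul_add] at h4
    refine h4.trans (add_le_add le_rfl ?_)
    refine mul_le_of_le_one_left ?_ (ind_le_one n)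
    exact mul_nonneg (by norm_num) (Finset.sum_nonneg fun d _ => lamNP_nonneg d)
  have h4 := sum_exact_le hP x
  have h5 := sum_lamNP_le x
  rw [h1]
  linarith

/-- the sum of `ind P m / m` -/
theorem sum_ind_div_le (hP : ∀ p ∈ P, p.Prime) {x : ℕ} (hx : 3 ≤ x) :
    ∑ m ∈ Finset.Icc 1 x, ind P m / m ≤
      Real.exp 1 * Real.exp (DS.primeSum Pᶜ (1 + 1 / Real.log x) +
        2 * ∑' n : ℕ, 1 / (n : ℝ) ^ 2) := by
  have hx0 : (0 : ℝ) < x := by
    have : 0 < x := by omega
    exact_mod_cast this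
  have hl : 0 < Real.log x := Real.log_pos (by
    have : 1 < x := by omega
    exact_mod_cast this)
  set s : ℝ := 1 + 1 / Real.log x with hs
  have hs1 : 1 < s := by
    have : 0 < 1 / Real.log x := by positivity
    linarith
  have h1 : ∀ m ∈ Finset.Icc 1 x, ind P m / m ≤ Real.exp 1 * (ind P m * (m : ℝ) ^ (-s)) := by
    intro m hm
    rw [Finset.mem_Icc] at hm
    have hm0 : (0 : ℝ) < m := by exact_mod_cast hm.1
    have h2 : (1 : ℝ) / m ≤ Real.exp 1 * (m : ℝ) ^ (-s) := by
      have h3 : (m : ℝ) ^ (-s) = 1 / m * (m : ℝ) ^ (-(1 / Real.log x)) := by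
        rw [hs, neg_add, Real.rpow_add hm0, Real.rpow_neg_one, one_div (m : ℝ)]
      have h4 : Real.exp (-1) ≤ (m : ℝ) ^ (-(1 / Real.log x)) := by
        rw [Real.rpow_def_of_pos hm0, Real.exp_le_exp]
        have h5 : Real.log m ≤ Real.log x := Real.log_le_log hm0 (by exact_mod_cast hm.2)
        have h6 : Real.log m * (1 / Real.log x) ≤ 1 := by
          rw [mul_one_div, div_le_one hl]
          exact h5
        linarith
      rw [h3]
      have h5 : Real.exp 1 * Real.exp (-1) = 1 := by rw [← Real.exp_add]; simp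
      calc (1 : ℝ) / m = (Real.exp 1 * Real.exp (-1)) * (1 / m) := by rw [h5, one_mul]
        _ = Real.exp 1 * (1 / m * Real.exp (-1)) := by ring
        _ ≤ Real.exp 1 * (1 / m * (m : ℝ) ^ (-(1 / Real.log x))) := by gcongr
    calc ind P m / m = ind P m * (1 / m) := by ring
      _ ≤ ind P m * (Real.exp 1 * (m : ℝ) ^ (-s)) := mul_le_mul_of_nonneg_left h2 (ind_nonneg m)
      _ = Real.exp 1 * (ind P m * (m : ℝ) ^ (-s)) := by ring
  refine (Finset.sum_le_sum h1).trans ?_
  rw [← Finset.mul_sum]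
  refine mul_le_mul_of_nonneg_left ?_ (Real.exp_pos 1).le
  exact ((summable_ind hs1).sum_le_tsum _ fun n _ =>
    mul_nonneg (ind_nonneg n) (by positivity)).trans (tsum_ind_le hP hs1)

/-! ### Densities -/

/-- The set of all primes has Dirichlet density `1`. -/
theorem hasDirichletDensity_univ : HasDirichletDensity Set.univ 1 := by
  have h1 := density_of_class (G := Unit) (1 : (AlgebraicClosure ℚ ≃ₐ[ℚ] AlgebraicClosure ℚ) →* Unit)
    (fun x => ⟨1, rfl⟩) ⟨⊥, inferInstance, fun _ _ => rfl⟩ Set.univ (fun _ _ _ => trivial)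
    Set.univ ∅ (fun p _ _ A _ => ⟨fun _ _ => rfl, fun σ _ => ⟨fun _ => trivial, fun _ => trivial⟩⟩)
  have h2 : ((Nat.card (Set.univ : Set Unit) : ℝ) / Nat.card Unit) = 1 := by
    simp
  rwa [h2] at h1

theorem primeSum_compl (S : Set ℕ) {s : ℝ} (hs : 1 < s) :
    DS.primeSum Sᶜ s = DS.primeSum Set.univ s - DS.primeSum S s := by
  rw [eq_sub_iff_add_eq, primeSum_eq_tsum, primeSum_eq_tsum, primeSum_eq_tsum,
    ← (summable_indicator Sᶜ hs).tsum_add (summable_indicator S hs)]
  refine tsum_congr fun p => ?_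
  by_cases hp : p.Prime
  · by_cases hS : p ∈ S
    · have h1 : p ∈ {p : ℕ | p.Prime ∧ p ∈ S} := ⟨hp, hS⟩
      have h2 : p ∈ {p : ℕ | p.Prime ∧ p ∈ (Set.univ : Set ℕ)} := ⟨hp, trivial⟩
      rw [Set.indicator_of_notMem (fun h => h.2 hS), Set.indicator_of_mem h1,
        Set.indicator_of_mem h2, zero_add]
    · have h1 : p ∈ {p : ℕ | p.Prime ∧ p ∈ Sᶜ} := ⟨hp, hS⟩
      have h2 : p ∈ {p : ℕ | p.Prime ∧ p ∈ (Set.univ : Set ℕ)} := ⟨hp, trivial⟩
      rw [Set.indicator_of_mem h1, Set.indicator_of_notMem (fun h => hS h.2),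
        Set.indicator_of_mem h2, add_zero]
  · rw [Set.indicator_of_notMem (fun h => hp h.1), Set.indicator_of_notMem (fun h => hp h.1),
      Set.indicator_of_notMem (fun h => hp h.1), add_zero]

theorem HasDirichletDensity.compl {S : Set ℕ} {d : ℝ} (h : HasDirichletDensity S d) :
    HasDirichletDensity Sᶜ (1 - d) := by
  have h1 := hasDirichletDensity_univ.sub h
  refine h1.congr' ?_
  filter_upwards [self_mem_nhdsWithin] with s hs
  rw [primeSum_compl S hs, sub_div]

theorem HasDirichletDensity.nonneg {S : Set ℕ} {d : ℝ} (h : HasDirichletDensity S d) : 0 ≤ d := by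
  refine ge_of_tendsto h ?_
  filter_upwards [DS.tendsto_log_atTop.eventually_gt_atTop 0] with s hl
  exact div_nonneg (DS.primeSum_nonneg S s) hl.le

theorem HasDirichletDensity.le_one {S : Set ℕ} {d : ℝ} (h : HasDirichletDensity S d) : d ≤ 1 := by
  have := h.compl.nonneg
  linarith

open scoped Classical in
/-- **The sieve.** If the set `P` of primes has Dirichlet density `α` and `δ < α`, then the number
of `1 ≤ n ≤ x` without exact divisor in `P` is `O(x / (log x)^δ)`. -/
theorem isBigO_count (hP : ∀ p ∈ P, p.Prime) {α δ : ℝ} (h : HasDirichletDensity P α)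
    (hδ : δ < α) :
    (fun x : ℕ => (((Finset.Icc 1 x).filter fun n => ∀ p ∈ P, ¬ Exact p n).card : ℝ)) =O[atTop]
      fun x : ℕ => (x : ℝ) / (Real.log x) ^ δ := by
  have hδ1 : 0 ≤ 1 - δ := by
    have := h.le_one
    linarith
  have hcount : ∀ x : ℕ, (((Finset.Icc 1 x).filter fun n => ∀ p ∈ P, ¬ Exact p n).card : ℝ) =
      ∑ n ∈ Finset.Icc 1 x, ind P n := by
    intro x
    rw [Finset.card_filter, Nat.cast_sum]
    refine Finset.sum_congr rfl fun n hn => ?_
    have hn0 : n ≠ 0 := by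
      have := (Finset.mem_Icc.mp hn).1
      omega
    unfold ind
    by_cases h1 : ∀ p ∈ P, ¬ Exact p n
    · rw [if_pos h1, if_pos ⟨hn0, h1⟩, Nat.cast_one]
    · rw [if_neg h1, if_neg (fun h2 => h1 h2.2), Nat.cast_zero]
  -- the Dirichlet series near `1`
  have h1 : ∀ᶠ s : ℝ in 𝓝[>] 1, DS.primeSum Pᶜ s ≤ (1 - δ) * Real.log (1 / (s - 1)) := by
    have h2 := h.compl.eventually_lt_const (show 1 - α < 1 - δ by linarith)
    filter_upwards [h2, DS.tendsto_log_atTop.eventually_gt_atTop 0] with s h3 h4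
    rw [div_lt_iff₀ h4] at h3
    exact h3.le
  have hlog : Tendsto (fun x : ℕ => Real.log (x : ℝ)) atTop atTop :=
    Real.tendsto_log_atTop.comp tendsto_natCast_atTop_atTop
  have h2 : Tendsto (fun x : ℕ => 1 + 1 / Real.log (x : ℝ)) atTop (𝓝[>] 1) := by
    refine tendsto_nhdsWithin_iff.mpr ⟨?_, ?_⟩
    · have h3 : Tendsto (fun x : ℕ => 1 / Real.log (x : ℝ)) atTop (𝓝 0) :=
        tendsto_const_nhds.div_atTop hlog
      simpa using h3.const_add 1
    · filter_upwards [hlog.eventually_gt_atTop 0] with x hx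
      have : 0 < 1 / Real.log (x : ℝ) := by positivity
      show 1 < 1 + 1 / Real.log (x : ℝ)
      linarith
  set C : ℝ := 2 * ∑' n : ℕ, 1 / (n : ℝ) ^ 2 with hC
  set C₀ : ℝ := 2 * (∑' n : ℕ, lamNP n / n) + 1 with hC₀
  have hC₀' : 0 ≤ C₀ := by
    have : 0 ≤ ∑' n : ℕ, lamNP n / n :=
      tsum_nonneg fun n => div_nonneg (lamNP_nonneg n) (Nat.cast_nonneg n)
    rw [hC₀]
    positivity
  refine Asymptotics.IsBigO.of_bound (Real.log 4 * (Real.exp 1 * Real.exp C) + C₀) ?_
  filter_upwards [h2.eventually h1, hlog.eventually_ge_atTop 1, eventually_ge_atTop 3]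
    with x hx1 hx2 hx3
  have hx0 : (0 : ℝ) < x := by
    have : 0 < x := by omega
    exact_mod_cast this
  set L : ℝ := Real.log (x : ℝ) with hL
  have hL0 : 0 < L := by linarith
  have h3 : DS.primeSum Pᶜ (1 + 1 / L) ≤ (1 - δ) * Real.log L := by
    have h4 : 1 / (1 + 1 / L - 1) = L := by rw [add_sub_cancel_left, one_div_one_div]
    rwa [h4] at hx1
  have h4 : Real.exp ((1 - δ) * Real.log L) = L ^ (1 - δ) := by
    rw [Real.rpow_def_of_pos hL0, mul_comm]
  have h5 : ∑ m ∈ Finset.Icc 1 x, ind P m / m ≤ Real.exp 1 * Real.exp C * L ^ (1 - δ) := by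
    refine (sum_ind_div_le hP hx3).trans ?_
    have h5 : Real.exp (DS.primeSum Pᶜ (1 + 1 / L) + C) ≤
        Real.exp C * Real.exp ((1 - δ) * Real.log L) := by
      rw [← Real.exp_add, Real.exp_le_exp]
      linarith
    rw [← h4, mul_assoc]
    exact mul_le_mul_of_nonneg_left h5 (Real.exp_pos 1).le
  have h6 : 1 ≤ L ^ (1 - δ) := Real.one_le_rpow hx2 hδ1
  have h7 := sum_ind_mul_log_le hP x
  have h8 : (∑ n ∈ Finset.Icc 1 x, ind P n) * L ≤
      (Real.log 4 * (Real.exp 1 * Real.exp C) + C₀) * x * L ^ (1 - δ) := by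
    refine h7.trans ?_
    have hl4 : 0 ≤ Real.log 4 := Real.log_nonneg (by norm_num)
    have h9 : Real.log 4 * x * ∑ m ∈ Finset.Icc 1 x, ind P m / m ≤
        Real.log 4 * x * (Real.exp 1 * Real.exp C * L ^ (1 - δ)) :=
      mul_le_mul_of_nonneg_left h5 (by positivity)
    have h10 : C₀ * x ≤ C₀ * x * L ^ (1 - δ) := le_mul_of_one_le_right (by positivity) h6
    calc Real.log 4 * x * ∑ m ∈ Finset.Icc 1 x, ind P m / m + C₀ * x
        ≤ Real.log 4 * x * (Real.exp 1 * Real.exp C * L ^ (1 - δ)) + C₀ * x * L ^ (1 - δ) :=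
          add_le_add h9 h10
      _ = (Real.log 4 * (Real.exp 1 * Real.exp C) + C₀) * x * L ^ (1 - δ) := by ring
  have h9 : L ^ (1 - δ) = L / L ^ δ := by rw [Real.rpow_sub hL0, Real.rpow_one]
  have hLδ : 0 < L ^ δ := Real.rpow_pos_of_pos hL0 δ
  rw [hcount, Real.norm_of_nonneg (Finset.sum_nonneg fun n _ => ind_nonneg n),
    Real.norm_of_nonneg (by positivity)]
  rw [h9] at h8
  have h10 : (Real.log 4 * (Real.exp 1 * Real.exp C) + C₀) * x * (L / L ^ δ) =
      ((Real.log 4 * (Real.exp 1 * Real.exp C) + C₀) * (x / L ^ δ)) * L := by ring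
  rw [h10] at h8
  exact le_of_mul_le_mul_right h8 hL0

end Fermat.Agent.Cor.WtOne

end
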