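import Fermat.Agent.Corollaries.WtOne.Basis
import Fermat.Agent.Corollaries.GenusZero
import Fermat.Agent.DS.IntGamma

/-!
# There are no cusp forms of weight one and level at most `21`

* `exists_conj`: complex conjugation of the coefficients gives a normalised eigenform of weight one
  with the conjugate character;
* `exists_product`: the product of a normalised eigenform `f` of weight one and level `N` and its
  conjugate is a cusp form `q² + …` of weight two on `Γ₀(N)`;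
* `eq_zero_of_finrank_le_one`: if `dim S₂(Γ₀(N)) ≤ 1` then `S₁(Γ₁(N)) = 0`;
* `eq_zero_of_mem`, `eq_zero_of_le`: `S₁(Γ₁(N)) = 0` for the `27` levels `N` with
  `dim S₂(Γ₀(N)) ≤ 1`, in particular for all `N ≤ 21`.
-/

set_option autoImplicit false

noncomputable section

open CongruenceSubgroup UpperHalfPlane Function Filter Topology Matrix.SpecialLinearGroup
open scoped MatrixGroups ModularForm ComplexConjugate Manifold

namespace Fermat.Agent.Cor.WtOne

open Fermat.Agent.X1 Fermat.Agent.HeckePar ModularFormClass Fermat.Agent.LT.End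

variable {N : ℕ} [NeZero N]

/-- The diamond operators act on an eigenform through its character. -/
theorem IsNormEigen.dia {ε : DirichletCharacter ℂ N} {f : CuspForm (Gamma1 N) 1}
    (hf : IsNormEigen ε f) (u : (ZMod N)ˣ) :
    dCusp N (Gamma1 N) 1 u f = ε (u : ZMod N) • f := by
  refine dCusp_eq_of_primes (Gamma1 N) f ε (fun p hp hpN => ?_) u
  have : Fact p.Prime := ⟨hp⟩
  refine dCusp_pUnit_eq (Gamma1 N) p hpN f _ (qCoeff f p) fun n => ?_
  simpa using hf.rel p hp hpN n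

/-- The nebentypus: `f | γ = ε(d) f` for `γ ∈ Γ₀(N)` with lower right entry `d`. -/
theorem IsNormEigen.slash {ε : DirichletCharacter ℂ N} {f : CuspForm (Gamma1 N) 1}
    (hf : IsNormEigen ε f) {γ : SL(2, ℤ)} (hγ : γ ∈ Gamma0 N) :
    (⇑f : ℍ → ℂ) ∣[(1 : ℤ)] γ = ε ((γ 1 1 : ℤ) : ZMod N) • (⇑f : ℍ → ℂ) := by
  have hu : IsUnit ((γ 1 1 : ℤ) : ZMod N) :=
    IsUnit.of_mul_eq_one_right _ (gamma0_00_mul_11 hγ)
  obtain ⟨u, hu⟩ := hu
  rw [slash_eq_dia (inv_gamma1 (Gamma1 N) 1 f) γ hγ u hu.symm, ← coe_dCusp (Gamma1 N) 1 u f,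
    hf.dia u, hu]
  rfl

/-- The conjugate form. -/
theorem exists_conj {ε : DirichletCharacter ℂ N} {f : CuspForm (Gamma1 N) 1}
    (hf : IsNormEigen ε f) : ∃ g : CuspForm (Gamma1 N) 1,
      IsNormEigen (ε.ringHomComp (starRingEnd ℂ)) g ∧ ∀ n, qCoeff g n = conj (qCoeff f n) := by
  obtain ⟨g, hg⟩ := DS.sigmaStable N (starRingEnd ℂ) f
  refine ⟨g, ⟨?_, fun p hp hpN n => ?_⟩, hg⟩
  · rw [hg, hf.one, map_one]
  · have h1 := congrArg (starRingEnd ℂ) (hf.rel p hp hpN n)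
    rw [map_add, map_mul, map_mul] at h1
    rw [hg (p * n), hg p, hg n, ← h1]
    simp only [MulChar.ringHomComp_apply]
    congr 2
    split_ifs
    · rw [hg]
    · rw [map_zero]

/-- The product of two cusp forms of weight one whose product is invariant under `Γ₀(N)`. -/
def prodForm (f g : CuspForm (Gamma1 N) 1)
    (h : ∀ γ ∈ Gamma0 N, ((⇑f : ℍ → ℂ) * ⇑g) ∣[(2 : ℤ)] (mapGL ℝ γ) = (⇑f : ℍ → ℂ) * ⇑g) :
    CuspForm (Gamma0 N) 2 where
  toFun := (⇑f : ℍ → ℂ) * ⇑g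
  slash_action_eq' γ hγ := by
    obtain ⟨γ, hγ, rfl⟩ := hγ
    exact h γ hγ
  holo' := (CuspFormClass.holo f).mul (CuspFormClass.holo g)
  zero_at_cusps' := by
    intro c hc A hA
    have hc' : IsCusp c (Gamma1 N : Subgroup (GL (Fin 2) ℝ)) := by
      rw [Subgroup.IsArithmetic.isCusp_iff_isCusp_SL2Z] at hc ⊢
      exact hc
    have h1 : IsZeroAtImInfty ((⇑f : ℍ → ℂ) ∣[(1 : ℤ)] A) := CuspFormClass.zero_at_cusps f hc' A hA
    have h2 : IsZeroAtImInfty ((⇑g : ℍ → ℂ) ∣[(1 : ℤ)] A) := CuspFormClass.zero_at_cusps g hc' A hA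
    have h3 : ((⇑f : ℍ → ℂ) * ⇑g) ∣[(2 : ℤ)] A =
        |(A.det : ℝ)| • ((⇑f : ℍ → ℂ) ∣[(1 : ℤ)] A * (⇑g : ℍ → ℂ) ∣[(1 : ℤ)] A) :=
      ModularForm.mul_slash 1 1 A _ _
    rw [h3]
    have h4 := (Tendsto.mul h1 h2).const_smul (|(A.det : ℝ)|)
    rw [mul_zero, smul_zero] at h4
    exact h4

/-- **The product of an eigenform of weight one and its conjugate.** -/
theorem exists_product {ε : DirichletCharacter ℂ N} {f : CuspForm (Gamma1 N) 1}
    (hf : IsNormEigen ε f) : ∃ F : CuspForm (Gamma0 N) 2, qCoeff F 1 = 0 ∧ qCoeff F 2 = 1 ∧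
      ∀ n, qCoeff F n = ∑ x ∈ Finset.HasAntidiagonal.antidiagonal n, qCoeff f x.1 * conj (qCoeff f x.2) := by
  obtain ⟨g, hg, hgc⟩ := exists_conj hf
  have hinv : ∀ γ ∈ Gamma0 N,
      ((⇑f : ℍ → ℂ) * ⇑g) ∣[(2 : ℤ)] (mapGL ℝ γ) = (⇑f : ℍ → ℂ) * ⇑g := by
    intro γ hγ
    have h1 : ((⇑f : ℍ → ℂ) * ⇑g) ∣[(2 : ℤ)] γ =
        (⇑f : ℍ → ℂ) ∣[(1 : ℤ)] γ * (⇑g : ℍ → ℂ) ∣[(1 : ℤ)] γ :=
      ModularForm.mul_slash_SL2 1 1 γ _ _
    have h2 : ε ((γ 1 1 : ℤ) : ZMod N) * (ε.ringHomComp (starRingEnd ℂ)) ((γ 1 1 : ℤ) : ZMod N) = 1 := by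
      rw [MulChar.ringHomComp_apply, Complex.mul_conj, Complex.normSq_eq_norm_sq]
      have hu : IsUnit ((γ 1 1 : ℤ) : ZMod N) :=
        IsUnit.of_mul_eq_one_right _ (gamma0_00_mul_11 hγ)
      obtain ⟨u, hu⟩ := hu
      rw [← hu, ε.unit_norm_eq_one u]
      norm_num
    show ((⇑f : ℍ → ℂ) * ⇑g) ∣[(2 : ℤ)] γ = _
    rw [h1, hf.slash hγ, hg.slash hγ, smul_mul_smul_comm, h2, one_smul]
  have hq : ∀ n, qCoeff ⇑(prodForm f g hinv) n =
      ∑ x ∈ Finset.HasAntidiagonal.antidiagonal n, qCoeff f x.1 * conj (qCoeff f x.2) := by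
    intro n
    have h1 := ModularForm.qExpansion_mul_coe one_pos (one_mem_strictPeriods N (Gamma1 N)) f g
    have h2 := congrArg (PowerSeries.coeff n) h1
    rw [PowerSeries.coeff_mul] at h2
    refine h2.trans (Finset.sum_congr rfl fun x _ => ?_)
    rw [← hgc]
    rfl
  have h0 : qCoeff f 0 = 0 := qCoeff_cusp_zero' N (Gamma1 N) 1 f
  refine ⟨prodForm f g hinv, ?_, ?_, hq⟩
  · rw [hq, Finset.Nat.antidiagonal_succ, Finset.sum_cons, Finset.sum_map]
    simp [h0]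
  · rw [hq, Finset.Nat.antidiagonal_succ, Finset.sum_cons, Finset.sum_map,
      Finset.Nat.antidiagonal_succ, Finset.sum_cons, Finset.sum_map]
    simp [h0, hf.one]

/-! ### Spaces of dimension at most one -/

omit [NeZero N] in
/-- In a space `S_k(Γ)` of dimension at most one a form with `a_1 = 0` is zero. -/
theorem eq_zero_of_qCoeff_one {k : ℤ} (Γ : Subgroup SL(2, ℤ)) [Between N Γ] [Γ.FiniteIndex]
    (hdim : Module.finrank ℂ (CuspForm Γ k) ≤ 1) (F : CuspForm Γ k) (h1 : qCoeff F 1 = 0) :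
    F = 0 := by
  have hfin := Pet.finiteDimensional Γ N k
  by_contra hF
  obtain ⟨v, hv⟩ := finrank_le_one_iff.mp hdim
  have hscal : ∀ G : CuspForm Γ k, ∃ c : ℂ, G = c • F := by
    intro G
    obtain ⟨a, ha⟩ := hv F
    obtain ⟨b, hb⟩ := hv G
    have ha0 : a ≠ 0 := by
      rintro rfl
      rw [zero_smul] at ha
      exact hF ha.symm
    refine ⟨b / a, ?_⟩
    rw [← ha, ← hb, smul_smul, div_mul_cancel₀ _ ha0]
  have key : ∀ n : ℕ, qCoeff F n = 0 := by
    intro n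
    induction n using Nat.strongRecOn with
    | ind n ih =>
      rcases Nat.lt_or_ge 1 n with hn | hn
      · obtain ⟨l, hl, m, rfl⟩ := Nat.exists_prime_and_dvd hn.ne'
        have hl' : Fact l.Prime := ⟨hl⟩
        have hm0 : 0 < m := Nat.pos_of_ne_zero (by rintro rfl; simp at hn)
        have hmn : m < l * m := by nlinarith [hl.two_le]
        obtain ⟨c, hc⟩ := hscal (tCusp N Γ k l F)
        have h2 : qCoeff (tCusp N Γ k l F) m = 0 := by
          rw [hc, qCoeff_cusp_smul N Γ k, ih m hmn, mul_zero]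
        by_cases hlN : l ∣ N
        · rw [qCoeff_tCusp_of_dvd Γ k l hlN, mul_comm] at h2
          exact h2
        · rw [qCoeff_tCusp Γ k l hlN, mul_comm m l] at h2
          have h3 : (if l ∣ m then (l : ℂ) ^ (k - 1) *
              qCoeff (dCusp N Γ k (pUnit N l) F) (m / l) else 0) = 0 := by
            split_ifs
            · obtain ⟨c', hc'⟩ := hscal (dCusp N Γ k (pUnit N l) F)
              rw [hc', qCoeff_cusp_smul N Γ k,
                ih _ (lt_of_le_of_lt (Nat.div_le_self _ _) hmn), mul_zero, mul_zero]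
            · rfl
          rw [h3, add_zero] at h2
          exact h2
      · interval_cases n
        · exact qCoeff_cusp_zero' N Γ k F
        · exact h1
  obtain ⟨B, hB⟩ := exists_sturm N Γ k
  exact hF (hB F fun n _ => key n)

/-- **If `dim S₂(Γ₀(N)) ≤ 1` then there are no cusp forms of weight one on `Γ₁(N)`.** -/
theorem eq_zero_of_finrank_le_one (h : Module.finrank ℂ (CuspForm (Gamma0 N) 2) ≤ 1)
    (f : CuspForm (Gamma1 N) 1) : f = 0 := by
  by_contra hf
  obtain ⟨t, ψ, v, hv0, hv, -⟩ := exists_isEig f hf ∅ (fun _ => 0) (fun _ _ _ h => absurd h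
    (Set.notMem_empty _))
  obtain ⟨w, hw, hw1⟩ := exists_first hv0 hv
  obtain ⟨ε, hε⟩ := exists_character hv0 hv
  obtain ⟨F, hF1, hF2, -⟩ := exists_product (isNormEigen_of_isEig hw hw1 hε).1
  have h0 := eq_zero_of_qCoeff_one (N := N) (Gamma0 N) h F hF1
  rw [h0] at hF2
  have h1 : qCoeff ⇑(0 : CuspForm (Gamma0 N) 2) 2 = 0 := (qLin N (Gamma0 N) 2 2).map_zero
  rw [h1] at hF2
  exact zero_ne_one hF2

/-- **`S₁(Γ₁(N)) = 0` for the `27` levels `N` with `dim S₂(Γ₀(N)) ≤ 1`**: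
`N = 1, …, 21, 24, 25, 27, 32, 36, 49`. -/
theorem eq_zero_of_mem (hN : N ∈ zeroLevels ++ oneLevels) (f : CuspForm (Gamma1 N) 1) : f = 0 := by
  refine eq_zero_of_finrank_le_one ?_ f
  rcases List.mem_append.mp hN with h | h
  · rw [(finrank_eq_zero_iff N).mpr h]
    exact zero_le_one
  · rw [(finrank_eq_one_iff N).mpr h]

/-- **There are no cusp forms of weight one and level `N ≤ 21`.** -/
theorem eq_zero_of_le (hN : N ≤ 21) (f : CuspForm (Gamma1 N) 1) : f = 0 := by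
  refine eq_zero_of_mem ?_ f
  have h1 : ∀ N ∈ Finset.range 22, N ≠ 0 → N ∈ zeroLevels ++ oneLevels := by decide
  exact h1 N (Finset.mem_range.mpr (by omega)) (NeZero.ne N)

end Fermat.Agent.Cor.WtOne

end
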